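/-
The dimension formula for cusp forms of weight two.
-/
import Fermat.Agent.Period.Periods
import Fermat.Agent.ModularDiff.Genus

/-!
# The dimension of `S₂(Γ₀(N))`

`finrank_cuspForm_two_eq`: the dimension of weight two cusp forms is the genus formula, restated
from `ModularDiff.finrank_cuspForm_eq_genusFormula`; it makes the period map surjective.
-/

set_option autoImplicit false

noncomputable section

namespace FLTAgent.HeckeH

/-- `dim S₂(Γ₀(N))` is the genus. -/
theorem finrank_cuspForm_two_eq (N : ℕ) [NeZero N] :
    (Module.finrank ℂ (CuspForm (CongruenceSubgroup.Gamma0 N) 2) : ℚ) =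
      ModularCurve.genusFormula N :=
  ModularDiff.finrank_cuspForm_eq_genusFormula N

end FLTAgent.HeckeH
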