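/-
Transfer operators on homomorphisms attached to finitely many coset representatives.
-/
import Mathlib
import Fermat.Agent.Period.Defs

/-!
# Transfer operators from coset representatives

`Reps G ι` is a finite system of integral matrices permuted by right multiplication by `G` up to
left multiplication by `G`, with cocycle `coc` and permutation `perm`. `transfer` sums a
homomorphism over the cocycle; `transfer_mem_H` and `transferH`: it preserves the subgroup
`Period.H` of homomorphisms killing parabolic and torsion elements. `transfer_conj` compares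
two systems that correspond under conjugation.
-/

set_option autoImplicit false

open CongruenceSubgroup
open scoped MatrixGroups

namespace FLTAgent.HeckeH

/-- Integral `2 × 2` matrices. -/
abbrev M2 := Matrix (Fin 2) (Fin 2) ℤ

theorem mul_right_cancel_of_det_ne {a b c : M2} (hc : c.det ≠ 0) (h : a * c = b * c) : a = b := by
  have h2 := congrArg (fun x : M2 => x * c.adjugate) h
  simp only [Matrix.mul_assoc, Matrix.mul_adjugate, Matrix.mul_smul, Matrix.mul_one] at h2
  ext i j
  have h3 := congrFun (congrFun h2 i) j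
  simp only [Matrix.smul_apply, smul_eq_mul] at h3
  exact mul_left_cancel₀ hc h3

/-- The matrix of an element of a subgroup of `SL(2, ℤ)`. -/
def matOf {G : Subgroup SL(2, ℤ)} (γ : G) : M2 := ((γ : SL(2, ℤ)) : M2)

@[simp] theorem matOf_one {G : Subgroup SL(2, ℤ)} : matOf (1 : G) = 1 := by simp [matOf]

@[simp] theorem matOf_mul {G : Subgroup SL(2, ℤ)} (γ δ : G) :
    matOf (γ * δ) = matOf γ * matOf δ := by simp [matOf]

theorem det_matOf {G : Subgroup SL(2, ℤ)} (γ : G) : (matOf γ).det = 1 := (γ : SL(2, ℤ)).2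

theorem matOf_injective {G : Subgroup SL(2, ℤ)} : Function.Injective (matOf (G := G)) :=
  fun _ _ h => Subtype.ext (Subtype.ext h)

/-- Representatives `β i` for the left orbits of `G` on a set of matrices stable under right
multiplication by `G`. -/
structure Reps (G : Subgroup SL(2, ℤ)) (ι : Type) where
  β : ι → M2
  det_ne : ∀ i, (β i).det ≠ 0
  exists_coc : ∀ (γ : G) (i : ι), ∃ (δ : G) (j : ι), β i * matOf γ = matOf δ * β j
  inj : ∀ (δ : G) (i j : ι), β i = matOf δ * β j → i = j

namespace Reps

variable {G : Subgroup SL(2, ℤ)} {ι : Type} (B : Reps G ι)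

noncomputable def coc (γ : G) (i : ι) : G := (B.exists_coc γ i).choose

noncomputable def perm (γ : G) (i : ι) : ι := (B.exists_coc γ i).choose_spec.choose

theorem spec (γ : G) (i : ι) : B.β i * matOf γ = matOf (B.coc γ i) * B.β (B.perm γ i) :=
  (B.exists_coc γ i).choose_spec.choose_spec

theorem unique {δ δ' : G} {j j' : ι} (h : matOf δ * B.β j = matOf δ' * B.β j') :
    δ = δ' ∧ j = j' := by
  have hj : j = j' := by
    refine B.inj (δ⁻¹ * δ') j j' ?_
    rw [matOf_mul, Matrix.mul_assoc, ← h, ← Matrix.mul_assoc, ← matOf_mul, inv_mul_cancel,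
      matOf_one, Matrix.one_mul]
  subst hj
  exact ⟨matOf_injective (mul_right_cancel_of_det_ne (B.det_ne j) h), rfl⟩

theorem eq_of_mul {γ δ : G} {i j : ι} (h : B.β i * matOf γ = matOf δ * B.β j) :
    B.coc γ i = δ ∧ B.perm γ i = j :=
  B.unique ((B.spec γ i).symm.trans h)

theorem spec_mul (γ γ' : G) (i : ι) :
    B.β i * matOf (γ * γ') =
      matOf (B.coc γ i * B.coc γ' (B.perm γ i)) * B.β (B.perm γ' (B.perm γ i)) := by
  rw [matOf_mul, ← Matrix.mul_assoc, B.spec γ i, Matrix.mul_assoc, B.spec γ' (B.perm γ i),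
    ← Matrix.mul_assoc, ← matOf_mul]

theorem coc_mul (γ γ' : G) (i : ι) :
    B.coc (γ * γ') i = B.coc γ i * B.coc γ' (B.perm γ i) :=
  (B.eq_of_mul (B.spec_mul γ γ' i)).1

theorem perm_mul (γ γ' : G) (i : ι) : B.perm (γ * γ') i = B.perm γ' (B.perm γ i) :=
  (B.eq_of_mul (B.spec_mul γ γ' i)).2

theorem perm_one (i : ι) : B.perm 1 i = i :=
  (B.eq_of_mul (γ := 1) (δ := 1) (i := i) (j := i) (by simp)).2

theorem coc_one (i : ι) : B.coc 1 i = 1 :=
  (B.eq_of_mul (γ := 1) (δ := 1) (i := i) (j := i) (by simp)).1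

/-- The permutation of the representatives attached to `γ`. -/
noncomputable def permEquiv (γ : G) : ι ≃ ι where
  toFun := B.perm γ
  invFun := B.perm γ⁻¹
  left_inv i := by rw [← B.perm_mul, mul_inv_cancel, B.perm_one]
  right_inv i := by rw [← B.perm_mul, inv_mul_cancel, B.perm_one]

theorem perm_injective (γ : G) : Function.Injective (B.perm γ) := (B.permEquiv γ).injective

section Transfer

variable [Fintype ι] (R : Type*) [Semiring R] {A : Type*} [AddCommGroup A] [Module R A]

/-- The transfer of a homomorphism along a system of representatives. -/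
noncomputable def transfer : (Additive G →+ A) →ₗ[R] (Additive G →+ A) where
  toFun φ :=
    { toFun := fun γ => ∑ i, φ (Additive.ofMul (B.coc (Additive.toMul γ) i))
      map_zero' := by
        refine Finset.sum_eq_zero fun i _ => ?_
        rw [toMul_zero, B.coc_one, ofMul_one, map_zero]
      map_add' := fun γ γ' => by
        simp only [toMul_add, B.coc_mul, ofMul_mul, map_add, Finset.sum_add_distrib]
        congr 1
        exact Equiv.sum_comp (B.permEquiv (Additive.toMul γ))
          (fun i => φ (Additive.ofMul (B.coc (Additive.toMul γ') i))) }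
  map_add' φ ψ := by
    ext γ
    simp [Finset.sum_add_distrib]
  map_smul' r φ := by
    ext γ
    simp [Finset.smul_sum]

theorem transfer_apply (φ : Additive G →+ A) (γ : G) :
    B.transfer R φ (Additive.ofMul γ) = ∑ i, φ (Additive.ofMul (B.coc γ i)) := rfl

theorem transfer_comp {R' : Type*} [Semiring R'] {A' : Type*} [AddCommGroup A'] [Module R' A']
    (g : A →+ A') (φ : Additive G →+ A) :
    B.transfer R' (g.comp φ) = g.comp (B.transfer R φ) := by
  refine AddMonoidHom.ext fun γ => ?_
  show ∑ i, g (φ (Additive.ofMul (B.coc (Additive.toMul γ) i))) = g _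
  rw [← map_sum]
  rfl

end Transfer

section Cycles

/-- The product of `coc γ` along the orbit of `i`. -/
theorem coc_pow (γ : G) (i : ι) (r : ℕ) {A : Type*} [AddCommGroup A] (φ : Additive G →+ A) :
    φ (Additive.ofMul (B.coc (γ ^ r) i)) =
        ∑ k ∈ Finset.range r, φ (Additive.ofMul (B.coc γ ((B.perm γ)^[k] i))) ∧
      B.perm (γ ^ r) i = (B.perm γ)^[r] i := by
  induction r with
  | zero => simp [B.coc_one, B.perm_one]
  | succ r ih =>
    rw [pow_succ, B.coc_mul, B.perm_mul, ih.2, Finset.sum_range_succ, ofMul_mul, map_add, ih.1,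
      Function.iterate_succ_apply']
    exact ⟨rfl, rfl⟩

/-- The value of a transfer vanishes as soon as it vanishes on every closed orbit. -/
theorem sum_coc_eq_zero [Fintype ι] {A : Type*} [AddCommGroup A] (φ : Additive G →+ A) (γ : G)
    (h : ∀ (i : ι) (r : ℕ), 0 < r → B.perm (γ ^ r) i = i →
      φ (Additive.ofMul (B.coc (γ ^ r) i)) = 0) :
    ∑ i, φ (Additive.ofMul (B.coc γ i)) = 0 := by
  classical
  suffices hs : ∀ s : Finset ι, (∀ i ∈ s, B.perm γ i ∈ s) →
      ∑ i ∈ s, φ (Additive.ofMul (B.coc γ i)) = 0 from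
    hs Finset.univ fun _ _ => Finset.mem_univ _
  intro s
  induction s using Finset.strongInduction with
  | _ s ih =>
    intro hinv
    rcases s.eq_empty_or_nonempty with rfl | ⟨i, hi⟩
    · simp
    set f := B.perm γ with hf
    have hfinj : Function.Injective f := B.perm_injective γ
    have hper : i ∈ Function.periodicPts f :=
      hfinj.mem_periodicPts i
    set r := Function.minimalPeriod f i with hr
    have hrpos : 0 < r := Function.minimalPeriod_pos_of_mem_periodicPts hper
    set O := (Finset.range r).image (fun k => f^[k] i) with hO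
    have hOs : O ⊆ s := by
      intro x hx
      rw [hO, Finset.mem_image] at hx
      obtain ⟨k, -, rfl⟩ := hx
      clear hO hrpos hr
      induction k with
      | zero => exact hi
      | succ k ihk => rw [Function.iterate_succ_apply']; exact hinv _ ihk
    have hsumO : ∑ x ∈ O, φ (Additive.ofMul (B.coc γ x)) = 0 := by
      rw [hO, Finset.sum_image]
      · rw [← (B.coc_pow γ i r φ).1]
        refine h i r hrpos ?_
        rw [(B.coc_pow γ i r φ).2]
        exact Function.iterate_minimalPeriod
      · intro a ha b hb hab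
        simp only [Finset.coe_range, Set.mem_Iio] at ha hb
        exact Function.iterate_injOn_Iio_minimalPeriod ha hb hab
    have hne : O.Nonempty := ⟨i, by
      rw [hO, Finset.mem_image]
      exact ⟨0, Finset.mem_range.mpr hrpos, rfl⟩⟩
    rw [← Finset.sum_sdiff hOs, hsumO, add_zero]
    refine ih (s \ O) (Finset.sdiff_ssubset hOs hne) ?_
    intro x hx
    rw [Finset.mem_sdiff] at hx ⊢
    refine ⟨hinv x hx.1, fun hxO => hx.2 ?_⟩
    rw [hO, Finset.mem_image] at hxO
    obtain ⟨k, hk, hkx⟩ := hxO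
    rw [hO, Finset.mem_image]
    rw [Finset.mem_range] at hk
    by_cases hk0 : k = 0
    · refine ⟨r - 1, Finset.mem_range.mpr (by omega), hfinj ?_⟩
      show f (f^[r - 1] i) = f x
      rw [← hkx, hk0, ← Function.iterate_succ_apply' f, Nat.succ_eq_add_one, Nat.sub_one_add_one hrpos.ne']
      exact Function.iterate_minimalPeriod
    · refine ⟨k - 1, Finset.mem_range.mpr (by omega), hfinj ?_⟩
      show f (f^[k - 1] i) = f x
      rw [← hkx, ← Function.iterate_succ_apply' f, Nat.succ_eq_add_one, Nat.sub_one_add_one hk0]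

end Cycles

end Reps

theorem mul_self_eq_of_det_one {M : M2} (hM : M.det = 1) : M * M = M.trace • M - 1 := by
  rw [Matrix.det_fin_two] at hM
  ext i j
  fin_cases i <;> fin_cases j <;>
    simp [-zsmul_eq_mul, Matrix.sub_apply, Matrix.mul_apply, Fin.sum_univ_two,
      Matrix.trace_fin_two] <;>
    first
      | linear_combination -hM
      | linear_combination hM
      | ring

theorem trace_pow_sq_eq_four {M : M2} (hM : M.det = 1) (ht : M.trace ^ 2 = 4) (r : ℕ) :
    (M ^ r).trace ^ 2 = 4 := by
  obtain ⟨e, he, het⟩ : ∃ e : ℤ, e ^ 2 = 1 ∧ M.trace = 2 * e := by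
    rcases sq_eq_sq_iff_eq_or_eq_neg.mp (show M.trace ^ 2 = (2 : ℤ) ^ 2 by rw [ht]; norm_num)
      with h | h
    · exact ⟨1, one_pow 2, by rw [h]; norm_num⟩
    · exact ⟨-1, by norm_num, by rw [h]; norm_num⟩
  have key : ∀ n : ℕ, (M ^ n).trace = 2 * e ^ n ∧ (M ^ (n + 1)).trace = 2 * e ^ (n + 1) := by
    intro n
    induction n with
    | zero => simp [het]
    | succ n ih =>
      refine ⟨ih.2, ?_⟩
      have h2 : M ^ (n + 1 + 1) = M.trace • M ^ (n + 1) - M ^ n := by
        rw [show n + 1 + 1 = n + 2 from rfl, pow_add, pow_two M, mul_self_eq_of_det_one hM,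
          Matrix.mul_sub, Matrix.mul_smul, Matrix.mul_one, ← pow_succ]
      rw [h2, Matrix.trace_sub, Matrix.trace_smul, ih.1, ih.2, het, smul_eq_mul]
      linear_combination (2 * e ^ n) * he
  rw [(key r).1]
  calc (2 * e ^ r) ^ 2 = 4 * (e ^ 2) ^ r := by ring
    _ = 4 := by rw [he, one_pow, mul_one]

theorem trace_eq_of_semiconj {β γ δ : M2} (hβ : β.det ≠ 0) (h : β * γ = δ * β) :
    γ.trace = δ.trace := by
  have h2 : β * γ * β.adjugate = β.det • δ := by
    rw [h, Matrix.mul_assoc, Matrix.mul_adjugate, Matrix.mul_smul, Matrix.mul_one]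
  have h3 : (β * γ * β.adjugate).trace = β.det * γ.trace := by
    rw [Matrix.trace_mul_comm, ← Matrix.mul_assoc, Matrix.adjugate_mul, Matrix.smul_mul,
      Matrix.one_mul, Matrix.trace_smul, smul_eq_mul]
  rw [h2, Matrix.trace_smul, smul_eq_mul] at h3
  exact (mul_left_cancel₀ hβ h3).symm

namespace Reps

variable {N : ℕ} {ι : Type} [Fintype ι] (B : Reps (Gamma0 N) ι)
  (R : Type*) [Semiring R] {A : Type*} [AddCommGroup A] [Module R A]

theorem transfer_mem_H {φ : Additive (Gamma0 N) →+ A} (hφ : φ ∈ Period.H N R A) :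
    B.transfer R φ ∈ Period.H N R A := by
  obtain ⟨hpar, hfin⟩ := hφ
  refine ⟨?_, ?_⟩
  · rw [ModularCurve.Period.mem_parabolicHoms_iff]
    intro γ hγ
    rw [transfer_apply]
    refine B.sum_coc_eq_zero φ γ fun i r _ hi => hpar _ ?_
    have hs := B.spec (γ ^ r) i
    rw [hi] at hs
    have ht := trace_eq_of_semiconj (B.det_ne i) hs
    show (matOf (B.coc (γ ^ r) i)).trace ^ 2 = 4
    rw [← ht]
    have hp : matOf (γ ^ r) = matOf γ ^ r := by simp [matOf]
    rw [hp]
    exact trace_pow_sq_eq_four (det_matOf γ) hγ r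
  · intro γ hγ
    rw [transfer_apply]
    refine B.sum_coc_eq_zero φ γ fun i r _ hi => hfin _ ?_
    obtain ⟨n, hn, hγn⟩ := isOfFinOrder_iff_pow_eq_one.mp hγ
    refine isOfFinOrder_iff_pow_eq_one.mpr ⟨n, hn, ?_⟩
    have hs := B.spec (γ ^ r) i
    rw [hi] at hs
    have hpow : ∀ k : ℕ, B.β i * matOf ((γ ^ r) ^ k) = matOf ((B.coc (γ ^ r) i) ^ k) * B.β i := by
      intro k
      induction k with
      | zero => simp
      | succ k ih =>
        rw [pow_succ, pow_succ, matOf_mul, matOf_mul, ← Matrix.mul_assoc, ih, Matrix.mul_assoc,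
          hs, ← Matrix.mul_assoc]
    have hn' := hpow n
    rw [← pow_mul, mul_comm r n, pow_mul, hγn, one_pow] at hn'
    exact (B.unique (δ := (B.coc (γ ^ r) i) ^ n) (δ' := 1) (j := i) (j' := i)
      (by rw [← hn']; simp)).1

/-- The transfer on `H N R A`. -/
noncomputable def transferH : Period.H N R A →ₗ[R] Period.H N R A :=
  (B.transfer R).restrict fun _ => B.transfer_mem_H R

@[simp]
theorem coe_transferH (φ : Period.H N R A) :
    ((B.transferH R φ : Period.H N R A) : Additive (Gamma0 N) →+ A) =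
      B.transfer R (φ : Additive (Gamma0 N) →+ A) := rfl

end Reps

namespace Reps

variable {G : Subgroup SL(2, ℤ)} {ι ι' : Type} (B : Reps G ι)

/-- Comparison of two systems of representatives which correspond under conjugation by `w`. -/
theorem transfer_conj [Fintype ι] [Fintype ι'] (B' : Reps G ι') (w : M2) (hw : w.det ≠ 0)
    (θ : G →* G) (hθ : ∀ γ : G, w * matOf γ = matOf (θ γ) * w)
    (e : ι ≃ ι') (ε : ι → G) (hβ : ∀ i, w * B.β i = matOf (ε i) * B'.β (e i) * w)
    (R : Type*) [Semiring R] {A : Type*} [AddCommGroup A] [Module R A]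
    (φ : Additive G →+ A) (γ : G) :
    B'.transfer R φ (Additive.ofMul (θ γ)) =
      B.transfer R (φ.comp (MonoidHom.toAdditive θ)) (Additive.ofMul γ) := by
  have key : ∀ i, B'.coc (θ γ) (e i) = (ε i)⁻¹ * θ (B.coc γ i) * ε (B.perm γ i) ∧
      B'.perm (θ γ) (e i) = e (B.perm γ i) := by
    intro i
    refine B'.eq_of_mul (mul_right_cancel_of_det_ne hw ?_)
    have h1 : w * B.β i * matOf γ = w * matOf (B.coc γ i) * B.β (B.perm γ i) := by
      rw [Matrix.mul_assoc, B.spec γ i, ← Matrix.mul_assoc]
    rw [hβ i, hθ, Matrix.mul_assoc (matOf (ε i) * B'.β (e i)) w (matOf γ), hθ γ,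
      Matrix.mul_assoc (matOf (θ (B.coc γ i))) w, hβ (B.perm γ i)] at h1
    simp only [← Matrix.mul_assoc] at h1
    have h2 := congrArg (fun x : M2 => matOf (ε i)⁻¹ * x) h1
    simp only [← Matrix.mul_assoc, ← matOf_mul, inv_mul_cancel, matOf_one, Matrix.one_mul] at h2
    rw [matOf_mul, matOf_mul]
    rw [matOf_mul, matOf_mul] at h2
    rw [← Matrix.mul_assoc (matOf (ε i)⁻¹)] at h2
    exact h2
  rw [transfer_apply, transfer_apply, ← Equiv.sum_comp e]
  simp only [(key _).1, ofMul_mul, ofMul_inv, map_add, map_neg, Finset.sum_add_distrib]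
  have hp : ∑ i, φ (Additive.ofMul (ε (B.perm γ i))) = ∑ i, φ (Additive.ofMul (ε i)) :=
    Equiv.sum_comp (B.permEquiv γ) (fun i => φ (Additive.ofMul (ε i)))
  rw [hp, Finset.sum_neg_distrib]
  simp [AddMonoidHom.comp_apply]

/-- Transport of representatives by conjugation. -/
def conj (w : M2) (hw : w.det ≠ 0) (θ : G ≃* G)
    (hθ : ∀ γ : G, w * matOf γ = matOf (θ γ) * w) (β' : ι → M2)
    (hβ : ∀ i, w * B.β i = β' i * w) : Reps G ι where
  β := β'
  det_ne i h := by
    have h2 := congrArg Matrix.det (hβ i)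
    rw [Matrix.det_mul, Matrix.det_mul, h, zero_mul] at h2
    exact mul_ne_zero hw (B.det_ne i) h2
  exists_coc γ i := by
    obtain ⟨δ, j, h⟩ := B.exists_coc (θ.symm γ) i
    refine ⟨θ δ, j, mul_right_cancel_of_det_ne hw ?_⟩
    have h1 : w * B.β i * matOf (θ.symm γ) = w * matOf δ * B.β j := by
      rw [Matrix.mul_assoc, h, ← Matrix.mul_assoc]
    rw [hβ i, hθ δ, Matrix.mul_assoc (β' i) w, hθ (θ.symm γ), θ.apply_symm_apply,
      Matrix.mul_assoc (matOf (θ δ)) w, hβ j] at h1
    simpa only [← Matrix.mul_assoc] using h1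
  inj δ i j h := by
    refine B.inj (θ.symm δ) i j ?_
    have h1 : w * B.β i = w * (matOf (θ.symm δ) * B.β j) := by
      rw [hβ i, h, ← Matrix.mul_assoc w, hθ, θ.apply_symm_apply, Matrix.mul_assoc (matOf δ) w,
        hβ j, Matrix.mul_assoc]
    have h2 := congrArg (fun x : M2 => w.adjugate * x) h1
    simp only [← Matrix.mul_assoc, Matrix.adjugate_mul, Matrix.smul_mul, Matrix.one_mul] at h2
    ext a b
    have h3 := congrFun (congrFun h2 a) b
    simp only [Matrix.smul_apply, smul_eq_mul] at h3
    exact mul_left_cancel₀ hw h3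

end Reps

end FLTAgent.HeckeH
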