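/-
The coset representatives of the Hecke operators of `Γ₀(N)`, the Fricke conjugation, and the
operators they induce on `H N R A`.
-/
import Fermat.Agent.HeckeH.Transfer

/-!
# Hecke representatives for `Γ₀(N)`

`heckeReps` gives the representatives `[[1, j], [0, ℓ]]`, and `[[ℓ, 0], [0, 1]]` when `ℓ ∤ N`;
`heckeRepsT` their conjugates by the Fricke matrix, with `wGamma0` that conjugation on `Γ₀(N)`.
They define the operators `heckeH` (`T_ℓ` or `U_ℓ`), `heckeHT` and the involution `wH` on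
`Period.H`, related by `heckeHT_eq`; `heckeHT_eq_heckeH` when `ℓ ∤ N`, and
`charInvolution_transfer`: the transfer commutes with the character involution.
-/

set_option autoImplicit false
set_option linter.unusedTactic false
set_option linter.unreachableTactic false

open CongruenceSubgroup
open scoped MatrixGroups

namespace FLTAgent.HeckeH

/-- The index set of the Hecke representatives: `j < ℓ`, and one more when `ℓ ∤ N`. -/
abbrev heckeIdx (N ℓ : ℕ) : Type := {o : Option (Fin ℓ) // o = none → ¬ ℓ ∣ N}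

/-- `[[1, j], [0, ℓ]]` and `[[ℓ, 0], [0, 1]]`. -/
def heckeBeta {N ℓ : ℕ} (i : heckeIdx N ℓ) : M2 :=
  match i.1 with
  | some j => !![(1 : ℤ), ((j : ℕ) : ℤ); 0, (ℓ : ℤ)]
  | none => !![(ℓ : ℤ), 0; 0, 1]

theorem heckeBeta_some {N ℓ : ℕ} (j : Fin ℓ) (h : some j = none → ¬ ℓ ∣ N) :
    heckeBeta (N := N) ⟨some j, h⟩ = !![(1 : ℤ), ((j : ℕ) : ℤ); 0, (ℓ : ℤ)] := rfl

theorem heckeBeta_none {N ℓ : ℕ} (h : (none : Option (Fin ℓ)) = none → ¬ ℓ ∣ N) :
    heckeBeta (N := N) ⟨none, h⟩ = !![(ℓ : ℤ), 0; 0, 1] := rfl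

theorem det_heckeBeta {N ℓ : ℕ} (i : heckeIdx N ℓ) : (heckeBeta i).det = ℓ := by
  obtain ⟨_ | j, h⟩ := i <;> simp [heckeBeta, Matrix.det_fin_two_of]

variable {N : ℕ}

theorem matOf_dvd (γ : Gamma0 N) : (N : ℤ) ∣ matOf γ 1 0 :=
  (ZMod.intCast_zmod_eq_zero_iff_dvd _ N).mp (Gamma0_mem.mp γ.2)

/-- An element of `Γ₀(N)` from its entries. -/
def mkGamma0 (a b c d : ℤ) (hdet : a * d - b * c = 1) (hc : (N : ℤ) ∣ c) : Gamma0 N :=
  ⟨⟨!![a, b; c, d], by rw [Matrix.det_fin_two_of, hdet]⟩,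
    Gamma0_mem.mpr ((ZMod.intCast_zmod_eq_zero_iff_dvd _ N).mpr (by simpa using hc))⟩

@[simp] theorem matOf_mkGamma0 (a b c d : ℤ) (hdet : a * d - b * c = 1) (hc : (N : ℤ) ∣ c) :
    matOf (mkGamma0 (N := N) a b c d hdet hc) = !![a, b; c, d] := rfl

theorem det_entries (γ : Gamma0 N) :
    matOf γ 0 0 * matOf γ 1 1 - matOf γ 0 1 * matOf γ 1 0 = 1 := by
  rw [← Matrix.det_fin_two, det_matOf]

theorem isCoprime_matOf (γ : Gamma0 N) : IsCoprime (matOf γ 0 0) (N : ℤ) := by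
  obtain ⟨c, hc⟩ := matOf_dvd γ
  exact ⟨matOf γ 1 1, -(matOf γ 0 1) * c, by linear_combination det_entries γ + matOf γ 0 1 * hc⟩

/-- Every integral matrix of determinant `ℓ`, upper triangular modulo `N` and with upper left
entry prime to `N`, lies in exactly one orbit of a Hecke representative. -/
theorem exists_heckeBeta {ℓ : ℕ} (hℓ : ℓ.Prime) (M : M2) (hdet : M.det = ℓ)
    (hc : (N : ℤ) ∣ M 1 0) (ha : IsCoprime (M 0 0) (N : ℤ)) :
    ∃ (δ : Gamma0 N) (i : heckeIdx N ℓ), M = matOf δ * heckeBeta i := by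
  rw [Matrix.det_fin_two] at hdet
  have hl0 : (ℓ : ℤ) ≠ 0 := by exact_mod_cast hℓ.ne_zero
  have : Fact ℓ.Prime := ⟨hℓ⟩
  set a := M 0 0 with ha'
  set b := M 0 1 with hb'
  set c := M 1 0 with hc'
  set d := M 1 1 with hd'
  have hM : M = !![a, b; c, d] := Matrix.eta_fin_two M
  by_cases hcase : ((a : ZMod ℓ) = 0 ∧ (c : ZMod ℓ) = 0)
  · obtain ⟨hal, hcl⟩ := hcase
    rw [ZMod.intCast_zmod_eq_zero_iff_dvd] at hal hcl
    have hlN : ¬ ℓ ∣ N := fun h => by
      have h1 : IsUnit (ℓ : ℤ) := ha.isUnit_of_dvd' hal (by exact_mod_cast h)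
      rw [Int.isUnit_iff] at h1
      have := hℓ.two_le
      omega
    have hco : IsCoprime (ℓ : ℤ) (N : ℤ) :=
      Int.isCoprime_iff_gcd_eq_one.mpr (by
        simpa [Int.gcd] using (Nat.Prime.coprime_iff_not_dvd hℓ).mpr hlN)
    obtain ⟨x, hx⟩ := hal
    obtain ⟨y, hy⟩ := hcl
    have hyN : (N : ℤ) ∣ y := hco.symm.dvd_of_dvd_mul_left (hy ▸ hc)
    refine ⟨mkGamma0 x b y d ?_ hyN, ⟨none, fun _ => hlN⟩, ?_⟩
    · refine mul_left_cancel₀ hl0 ?_
      linear_combination hdet - d * hx + b * hy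
    · rw [hM, heckeBeta_none, matOf_mkGamma0, Matrix.mul_fin_two, hx, hy]
      simp [mul_comm]
  · have hdet' : (a : ZMod ℓ) * d - b * c = 0 := by
      have h := congrArg (fun x : ℤ => (x : ZMod ℓ)) hdet
      push_cast at h
      rw [h, ZMod.natCast_self]
    obtain ⟨t, ht1, ht2⟩ : ∃ t : ZMod ℓ, (b : ZMod ℓ) = t * a ∧ (d : ZMod ℓ) = t * c := by
      by_cases hA : (a : ZMod ℓ) = 0
      · have hC : (c : ZMod ℓ) ≠ 0 := fun h => hcase ⟨hA, h⟩
        refine ⟨(d : ZMod ℓ) / c, ?_, (div_mul_cancel₀ _ hC).symm⟩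
        rw [hA, zero_mul, zero_sub, neg_eq_zero, mul_eq_zero] at hdet'
        rw [hA, mul_zero]
        exact hdet'.resolve_right hC
      · refine ⟨(b : ZMod ℓ) / a, (div_mul_cancel₀ _ hA).symm, ?_⟩
        field_simp
        linear_combination hdet'
    have : NeZero ℓ := ⟨hℓ.ne_zero⟩
    obtain ⟨u, hu⟩ : (ℓ : ℤ) ∣ b - (t.val : ℤ) * a := by
      rw [← ZMod.intCast_zmod_eq_zero_iff_dvd]
      push_cast
      rw [ZMod.natCast_zmod_val, ht1, sub_self]
    obtain ⟨v, hv⟩ : (ℓ : ℤ) ∣ d - (t.val : ℤ) * c := by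
      rw [← ZMod.intCast_zmod_eq_zero_iff_dvd]
      push_cast
      rw [ZMod.natCast_zmod_val, ht2, sub_self]
    refine ⟨mkGamma0 a u c v ?_ hc, ⟨some ⟨t.val, ZMod.val_lt t⟩, fun h => by simp at h⟩, ?_⟩
    · refine mul_left_cancel₀ hl0 ?_
      linear_combination hdet - a * hv + c * hu
    · rw [hM, heckeBeta_some, matOf_mkGamma0, Matrix.mul_fin_two]
      ext i j
      fin_cases i <;> fin_cases j <;>
        simp [-ZMod.natCast_val] <;>
        linarith [hu, hv]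

theorem heckeBeta_inj {ℓ : ℕ} (hℓ : ℓ.Prime) (δ : Gamma0 N) (i j : heckeIdx N ℓ)
    (h : heckeBeta i = matOf δ * heckeBeta j) : i = j := by
  have hl2 : (2 : ℤ) ≤ ℓ := by exact_mod_cast hℓ.two_le
  obtain ⟨_ | a, ha⟩ := i <;> obtain ⟨_ | b, hb⟩ := j
  · rfl
  · exfalso
    rw [heckeBeta_none, heckeBeta_some, Matrix.eta_fin_two (matOf δ), Matrix.mul_fin_two] at h
    have h10 := congrFun (congrFun h 1) 0
    have h11 := congrFun (congrFun h 1) 1
    simp at h10 h11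
    rw [← h10, zero_mul, zero_add] at h11
    have : (ℓ : ℤ) ∣ 1 := ⟨matOf δ 1 1, by linarith [h11, mul_comm (ℓ : ℤ) (matOf δ 1 1)]⟩
    have := Int.le_of_dvd one_pos this
    omega
  · exfalso
    rw [heckeBeta_none, heckeBeta_some, Matrix.eta_fin_two (matOf δ), Matrix.mul_fin_two] at h
    have h00 := congrFun (congrFun h 0) 0
    simp at h00
    have : (ℓ : ℤ) ∣ 1 := ⟨matOf δ 0 0, by linarith [h00, mul_comm (ℓ : ℤ) (matOf δ 0 0)]⟩
    have := Int.le_of_dvd one_pos this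
    omega
  · rw [heckeBeta_some, heckeBeta_some, Matrix.eta_fin_two (matOf δ), Matrix.mul_fin_two] at h
    have h00 := congrFun (congrFun h 0) 0
    have h01 := congrFun (congrFun h 0) 1
    simp at h00 h01
    rw [← h00, one_mul] at h01
    have h2 : (ℓ : ℤ) ∣ (a : ℕ) - (b : ℕ) :=
      ⟨matOf δ 0 1, by linear_combination h01⟩
    have h3 : ((a : ℕ) : ℤ) - (b : ℕ) = 0 := by
      refine Int.eq_zero_of_abs_lt_dvd h2 ?_
      rw [abs_lt]
      have := a.2
      have := b.2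
      constructor <;> omega
    have : a = b := Fin.ext (by omega)
    subst this
    rfl

/-- The Hecke representatives for `T_ℓ` (`ℓ ∤ N`) or `U_ℓ` (`ℓ ∣ N`). -/
def heckeReps (N : ℕ) {ℓ : ℕ} (hℓ : ℓ.Prime) : Reps (Gamma0 N) (heckeIdx N ℓ) where
  β := heckeBeta
  det_ne i := by rw [det_heckeBeta]; exact_mod_cast hℓ.ne_zero
  exists_coc γ i := by
    refine exists_heckeBeta hℓ _ (by rw [Matrix.det_mul, det_heckeBeta, det_matOf, mul_one]) ?_ ?_
    · obtain ⟨_ | j, h⟩ := i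
      · rw [heckeBeta_none, Matrix.mul_apply, Fin.sum_univ_two]
        simpa using matOf_dvd γ
      · rw [heckeBeta_some, Matrix.mul_apply, Fin.sum_univ_two]
        simpa using (matOf_dvd γ).mul_left (ℓ : ℤ)
    · obtain ⟨_ | j, h⟩ := i
      · rw [heckeBeta_none, Matrix.mul_apply, Fin.sum_univ_two]
        have hco : IsCoprime (ℓ : ℤ) (N : ℤ) :=
          Int.isCoprime_iff_gcd_eq_one.mpr (by
            simpa [Int.gcd] using (Nat.Prime.coprime_iff_not_dvd hℓ).mpr (h rfl))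
        simpa using hco.mul_left (isCoprime_matOf γ)
      · rw [heckeBeta_some, Matrix.mul_apply, Fin.sum_univ_two]
        obtain ⟨c, hc⟩ := matOf_dvd γ
        simpa [hc, mul_left_comm] using (isCoprime_matOf γ).add_mul_left_left ((j : ℕ) * c)
  inj := heckeBeta_inj hℓ

@[simp] theorem heckeReps_β (N : ℕ) {ℓ : ℕ} (hℓ : ℓ.Prime) (i : heckeIdx N ℓ) :
    (heckeReps N hℓ).β i = heckeBeta i := rfl

/-- The conjugation by `[[0, -1], [N, 0]]` on entries. -/
def wMat (N : ℕ) (M : M2) : M2 := !![M 1 1, -(M 1 0 / (N : ℤ)); -((N : ℤ) * M 0 1), M 0 0]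

/-- The Fricke matrix. -/
def wFricke (N : ℕ) : M2 := !![0, -1; (N : ℤ), 0]

theorem det_wFricke (N : ℕ) : (wFricke N).det = N := by simp [wFricke, Matrix.det_fin_two_of]

theorem wFricke_mul (N : ℕ) (M : M2) (h : (N : ℤ) ∣ M 1 0) :
    wFricke N * M = wMat N M * wFricke N := by
  obtain ⟨c, hc⟩ := h
  rw [Matrix.eta_fin_two M, wFricke, wMat]
  rw [Matrix.mul_fin_two, Matrix.mul_fin_two]
  simp only [Matrix.cons_val', Matrix.cons_val_zero, Matrix.cons_val_one, Matrix.cons_val_fin_one,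
    Matrix.of_apply]
  by_cases hN : (N : ℤ) = 0
  · simp [hc, hN]
  · rw [hc, Int.mul_ediv_cancel_left _ hN]
    ext i j
    fin_cases i <;> fin_cases j <;> simp <;> ring

/-- Conjugation by the Fricke matrix, on `Γ₀(N)`. -/
def wGamma0 (N : ℕ) [NeZero N] : Gamma0 N ≃* Gamma0 N where
  toFun γ := mkGamma0 (matOf γ 1 1) (-(matOf γ 1 0 / (N : ℤ))) (-((N : ℤ) * matOf γ 0 1))
    (matOf γ 0 0) (by
      obtain ⟨c, hc⟩ := matOf_dvd γ
      have h := det_entries γ
      rw [hc] at h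
      rw [hc, Int.mul_ediv_cancel_left _ (by exact_mod_cast NeZero.ne N)]
      linear_combination h) (dvd_neg.mpr (dvd_mul_right _ _))
  invFun γ := mkGamma0 (matOf γ 1 1) (-(matOf γ 1 0 / (N : ℤ))) (-((N : ℤ) * matOf γ 0 1))
    (matOf γ 0 0) (by
      obtain ⟨c, hc⟩ := matOf_dvd γ
      have h := det_entries γ
      rw [hc] at h
      rw [hc, Int.mul_ediv_cancel_left _ (by exact_mod_cast NeZero.ne N)]
      linear_combination h) (dvd_neg.mpr (dvd_mul_right _ _))
  left_inv γ := by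
    apply matOf_injective
    obtain ⟨c, hc⟩ := matOf_dvd γ
    simp only [matOf_mkGamma0]
    rw [Matrix.eta_fin_two (matOf γ)]
    have h2 : -(-((N : ℤ) * matOf γ 0 1) / (N : ℤ)) = matOf γ 0 1 := by
      rw [← mul_neg, Int.mul_ediv_cancel_left _ (by exact_mod_cast NeZero.ne N), neg_neg]
    simp [hc, NeZero.ne, h2]
  right_inv γ := by
    apply matOf_injective
    obtain ⟨c, hc⟩ := matOf_dvd γ
    simp only [matOf_mkGamma0]
    rw [Matrix.eta_fin_two (matOf γ)]
    have h2 : -(-((N : ℤ) * matOf γ 0 1) / (N : ℤ)) = matOf γ 0 1 := by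
      rw [← mul_neg, Int.mul_ediv_cancel_left _ (by exact_mod_cast NeZero.ne N), neg_neg]
    simp [hc, NeZero.ne, h2]
  map_mul' γ δ := by
    apply matOf_injective
    refine mul_right_cancel_of_det_ne (c := wFricke N) ?_ ?_
    · rw [det_wFricke]; exact_mod_cast NeZero.ne N
    simp only [matOf_mul (mkGamma0 _ _ _ _ _ _), matOf_mkGamma0]
    change wMat N (matOf (γ * δ)) * _ = (wMat N (matOf γ) * wMat N (matOf δ)) * _
    rw [Matrix.mul_assoc, ← wFricke_mul N _ (matOf_dvd δ), ← Matrix.mul_assoc,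
      ← wFricke_mul N _ (matOf_dvd γ), ← wFricke_mul N _ (matOf_dvd (γ * δ)), matOf_mul,
      Matrix.mul_assoc]

theorem matOf_wGamma0 [NeZero N] (γ : Gamma0 N) : matOf (wGamma0 N γ) = wMat N (matOf γ) := rfl

theorem wFricke_mul_matOf [NeZero N] (γ : Gamma0 N) :
    wFricke N * matOf γ = matOf (wGamma0 N γ) * wFricke N :=
  wFricke_mul N _ (matOf_dvd γ)

theorem wGamma0_wGamma0 [NeZero N] (γ : Gamma0 N) : wGamma0 N (wGamma0 N γ) = γ :=
  (wGamma0 N).left_inv γ

/-- `[[ℓ, 0], [-N j, 1]]` and `[[1, 0], [0, ℓ]]`. -/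
def heckeBetaT {N ℓ : ℕ} (i : heckeIdx N ℓ) : M2 := wMat N (heckeBeta i)

theorem heckeBetaT_some {N ℓ : ℕ} (j : Fin ℓ) (h : some j = none → ¬ ℓ ∣ N) :
    heckeBetaT (N := N) ⟨some j, h⟩ = !![(ℓ : ℤ), 0; -((N : ℤ) * (j : ℕ)), 1] := by
  simp [heckeBetaT, heckeBeta, wMat]

theorem heckeBetaT_none {N ℓ : ℕ} (h : (none : Option (Fin ℓ)) = none → ¬ ℓ ∣ N) :
    heckeBetaT (N := N) ⟨none, h⟩ = !![(1 : ℤ), 0; 0, (ℓ : ℤ)] := by
  simp [heckeBetaT, heckeBeta, wMat]

theorem wFricke_mul_heckeBeta {N ℓ : ℕ} (i : heckeIdx N ℓ) :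
    wFricke N * heckeBeta i = heckeBetaT i * wFricke N := by
  refine wFricke_mul N _ ?_
  obtain ⟨_ | j, h⟩ := i <;> simp [heckeBeta]

/-- The representatives of the double coset of `diag(ℓ, 1)`. -/
noncomputable def heckeRepsT (N : ℕ) [NeZero N] {ℓ : ℕ} (hℓ : ℓ.Prime) :
    Reps (Gamma0 N) (heckeIdx N ℓ) :=
  (heckeReps N hℓ).conj (wFricke N) (by rw [det_wFricke]; exact_mod_cast NeZero.ne N)
    (wGamma0 N) wFricke_mul_matOf heckeBetaT wFricke_mul_heckeBeta

@[simp] theorem heckeRepsT_β (N : ℕ) [NeZero N] {ℓ : ℕ} (hℓ : ℓ.Prime) (i : heckeIdx N ℓ) :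
    (heckeRepsT N hℓ).β i = heckeBetaT i := rfl

section Operators

variable (N : ℕ) {ℓ : ℕ} (hℓ : ℓ.Prime) (R : Type*) [Semiring R] (A : Type*) [AddCommGroup A]
  [Module R A]

/-- `T_ℓ` (`ℓ ∤ N`) or `U_ℓ` (`ℓ ∣ N`) on `H N R A`. -/
noncomputable def heckeH : Module.End R (Period.H N R A) := (heckeReps N hℓ).transferH R

theorem coe_heckeH (φ : Period.H N R A) :
    ((heckeH N hℓ R A φ : Period.H N R A) : Additive (Gamma0 N) →+ A) =
      (heckeReps N hℓ).transfer R (φ : Additive (Gamma0 N) →+ A) := rfl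

/-- The operator of the double coset of `diag(ℓ, 1)`; it is the one attached to
`ModularCurve.heckeOperatorBar`. -/
noncomputable def heckeHT [NeZero N] : Module.End R (Period.H N R A) :=
  (heckeRepsT N hℓ).transferH R

theorem coe_heckeHT [NeZero N] (φ : Period.H N R A) :
    ((heckeHT N hℓ R A φ : Period.H N R A) : Additive (Gamma0 N) →+ A) =
      (heckeRepsT N hℓ).transfer R (φ : Additive (Gamma0 N) →+ A) := rfl

theorem wFlip_mem [NeZero N] {φ : Additive (Gamma0 N) →+ A} (hφ : φ ∈ Period.H N R A) :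
    φ.comp (MonoidHom.toAdditive (wGamma0 N).toMonoidHom) ∈ Period.H N R A := by
  refine ⟨?_, ?_⟩
  · rw [ModularCurve.Period.mem_parabolicHoms_iff]
    intro γ hγ
    refine hφ.1 (wGamma0 N γ) ?_
    show (matOf (wGamma0 N γ)).trace ^ 2 = 4
    rw [← trace_eq_of_semiconj (by rw [det_wFricke]; exact_mod_cast NeZero.ne N)
      (wFricke_mul_matOf γ)]
    exact hγ
  · intro γ hγ
    exact hφ.2 _ ((wGamma0 N).toMonoidHom.isOfFinOrder hγ)

/-- Composition with the Fricke conjugation. -/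
noncomputable def wH [NeZero N] : Module.End R (Period.H N R A) where
  toFun φ := ⟨(φ : Additive (Gamma0 N) →+ A).comp (MonoidHom.toAdditive (wGamma0 N).toMonoidHom),
    wFlip_mem N R A φ.2⟩
  map_add' _ _ := rfl
  map_smul' _ _ := rfl

theorem wH_apply [NeZero N] (φ : Period.H N R A) (γ : Gamma0 N) :
    (wH N R A φ : Additive (Gamma0 N) →+ A) (Additive.ofMul γ) =
      (φ : Additive (Gamma0 N) →+ A) (Additive.ofMul (wGamma0 N γ)) := rfl

theorem wH_wH [NeZero N] (φ : Period.H N R A) : wH N R A (wH N R A φ) = φ := by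
  refine Subtype.ext (AddMonoidHom.ext fun γ => ?_)
  show (φ : Additive (Gamma0 N) →+ A) (Additive.ofMul (wGamma0 N (wGamma0 N _))) = _
  rw [wGamma0_wGamma0]
  rfl

/-- `heckeHT` is the conjugate of `heckeH` by the Fricke matrix. -/
theorem wH_heckeHT [NeZero N] (φ : Period.H N R A) :
    wH N R A (heckeHT N hℓ R A φ) = heckeH N hℓ R A (wH N R A φ) := by
  refine Subtype.ext (AddMonoidHom.ext fun γ => ?_)
  exact (heckeReps N hℓ).transfer_conj (heckeRepsT N hℓ) (wFricke N)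
    (by rw [det_wFricke]; exact_mod_cast NeZero.ne N) (wGamma0 N).toMonoidHom wFricke_mul_matOf
    (Equiv.refl _) (fun _ => 1) (fun i => by simpa using wFricke_mul_heckeBeta i) R
    (φ : Additive (Gamma0 N) →+ A) (Additive.toMul γ)

theorem heckeHT_eq [NeZero N] (φ : Period.H N R A) :
    heckeHT N hℓ R A φ = wH N R A (heckeH N hℓ R A (wH N R A φ)) := by
  rw [← wH_heckeHT, wH_wH]

/-- For `ℓ ∤ N` the two double cosets agree. -/
theorem heckeHT_eq_heckeH [NeZero N] (hℓN : ¬ ℓ ∣ N) : heckeHT N hℓ R A = heckeH N hℓ R A := by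
  have hone : ∀ γ : Gamma0 N, (1 : M2) * matOf γ = matOf ((MonoidHom.id _) γ) * 1 := by
    intro γ; simp
  have hstep : ∀ i : heckeIdx N ℓ, ∃ (δ : Gamma0 N) (j : heckeIdx N ℓ),
      heckeBetaT i = matOf δ * heckeBeta j := by
    have hco : IsCoprime (ℓ : ℤ) (N : ℤ) :=
      Int.isCoprime_iff_gcd_eq_one.mpr (by
        simpa [Int.gcd] using (Nat.Prime.coprime_iff_not_dvd hℓ).mpr hℓN)
    rintro ⟨_ | j, h⟩
    · rw [heckeBetaT_none]
      exact exists_heckeBeta hℓ _ (by simp [Matrix.det_fin_two_of]) (by simp)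
        (by simpa using isCoprime_one_left)
    · rw [heckeBetaT_some]
      exact exists_heckeBeta hℓ _ (by simp [Matrix.det_fin_two_of]) (by simp)
        (by simpa using hco)
  choose δ e hδ using hstep
  have hinj : Function.Injective e := by
    intro i i' hii
    refine (heckeRepsT N hℓ).inj (δ i * (δ i')⁻¹) i i' ?_
    rw [heckeRepsT_β, heckeRepsT_β, hδ i, hδ i', hii, ← Matrix.mul_assoc, ← matOf_mul,
      inv_mul_cancel_right]
  let eq : heckeIdx N ℓ ≃ heckeIdx N ℓ :=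
    Equiv.ofBijective e ⟨hinj, Finite.surjective_of_injective hinj⟩
  refine LinearMap.ext fun φ => Subtype.ext (AddMonoidHom.ext fun γ => ?_)
  refine Eq.symm ?_
  exact (heckeRepsT N hℓ).transfer_conj (heckeReps N hℓ) 1 (by simp) (MonoidHom.id _) hone
    eq δ (fun i => by
      rw [Matrix.one_mul, Matrix.mul_one]; exact hδ i) R (φ : Additive (Gamma0 N) →+ A)
    (Additive.toMul γ)

theorem charInvolution_mem_H {φ : Additive (Gamma0 N) →+ A} (hφ : φ ∈ Period.H N R A) :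
    ModularCurve.Period.charInvolution N R A φ ∈ Period.H N R A :=
  ⟨ModularCurve.Period.charInvolution_mem_parabolicHoms N R A hφ.1,
    fun _ hγ => hφ.2 _ ((ModularCurve.Period.jConjGamma0 N).isOfFinOrder hγ)⟩

/-- The Hecke transfer commutes with the character involution. -/
theorem charInvolution_transfer (φ : Additive (Gamma0 N) →+ A) :
    ModularCurve.Period.charInvolution N R A ((heckeReps N hℓ).transfer R φ) =
      (heckeReps N hℓ).transfer R (ModularCurve.Period.charInvolution N R A φ) := by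
  have hJ : ∀ γ : Gamma0 N, !![(1 : ℤ), 0; 0, -1] * matOf γ =
      matOf (ModularCurve.Period.jConjGamma0 N γ) * !![(1 : ℤ), 0; 0, -1] := by
    intro γ
    show _ = ModularCurve.Period.jConjMat (matOf γ) * _
    rw [Matrix.eta_fin_two (matOf γ)]
    ext i j
    fin_cases i <;> fin_cases j <;> simp [ModularCurve.Period.jConjMat, Matrix.mul_apply]
  have hstep : ∀ i : heckeIdx N ℓ, ∃ (δ : Gamma0 N) (j : heckeIdx N ℓ),
      !![(1 : ℤ), 0; 0, -1] * heckeBeta i =
        matOf δ * heckeBeta j * !![(1 : ℤ), 0; 0, -1] := by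
    rintro ⟨_ | j, h⟩
    · exact ⟨1, ⟨none, h⟩, by simp [heckeBeta_none]⟩
    · obtain ⟨δ, j', hj'⟩ := exists_heckeBeta (N := N) hℓ !![(1 : ℤ), -((j : ℕ) : ℤ); 0, (ℓ : ℤ)]
        (by simp [Matrix.det_fin_two_of]) (by simp) (by simpa using isCoprime_one_left)
      exact ⟨δ, j', by rw [← hj']; simp [heckeBeta_some]⟩
  choose δ e hδ using hstep
  have hinj : Function.Injective e := by
    intro i i' hii
    refine (heckeReps N hℓ).inj
      (ModularCurve.Period.jConjGamma0 N (δ i * (δ i')⁻¹)) i i' ?_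
    have hd : (!![(1 : ℤ), 0; 0, -1] : M2).det ≠ 0 := by simp [Matrix.det_fin_two_of]
    have h1 : !![(1 : ℤ), 0; 0, -1] * heckeBeta i =
        matOf (δ i * (δ i')⁻¹) * (!![(1 : ℤ), 0; 0, -1] * heckeBeta i') := by
      rw [hδ i, hδ i', hii, ← Matrix.mul_assoc, ← Matrix.mul_assoc, ← matOf_mul,
        inv_mul_cancel_right]
    have hJJ : (!![(1 : ℤ), 0; 0, -1] : M2) * !![(1 : ℤ), 0; 0, -1] = 1 := by
      simp [Matrix.one_fin_two]
    have h2 := congrArg (fun x : M2 => !![(1 : ℤ), 0; 0, -1] * x) h1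
    simp only [← Matrix.mul_assoc, hJJ, Matrix.one_mul, hJ] at h2
    rw [Matrix.mul_assoc (matOf _), hJJ, Matrix.mul_one] at h2
    exact h2
  let eq : heckeIdx N ℓ ≃ heckeIdx N ℓ :=
    Equiv.ofBijective e ⟨hinj, Finite.surjective_of_injective hinj⟩
  refine AddMonoidHom.ext fun γ => ?_
  exact (heckeReps N hℓ).transfer_conj (heckeReps N hℓ) !![(1 : ℤ), 0; 0, -1]
    (by simp [Matrix.det_fin_two_of]) (ModularCurve.Period.jConjGamma0 N) hJ eq δ
    hδ R φ (Additive.toMul γ)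

end Operators

end FLTAgent.HeckeH
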