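/-
The period map intertwines the Hecke operators on cusp forms with the transfer operators.
-/
import Fermat.Agent.HeckeH.Cosets
import Fermat.Agent.Period.Periods
import Fermat.Prelude.Def_CuspForm_HeckeAlgebra

/-!
# Periods intertwine Hecke operators with transfers

`periodMap_heckeTLin` and `periodMap_heckeULin`: the period homomorphism of `T_ℓ f` or `U_ℓ f` is
the transfer of that of `f`. A primitive of `f` summed over the translates (`sumTranslates`) has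
derivative the transformed form and changes under `γ` by the transfer of the periods.
`periodHomPair_heckeTLin` and `periodHomPair_heckeULin` are the versions for pairs of forms.
-/

set_option autoImplicit false

open CongruenceSubgroup ModularCurve ModularCurve.Period UpperHalfPlane Filter Topology
open scoped MatrixGroups

noncomputable section

namespace FLTAgent.HeckeH

/-- An integral matrix of non-zero determinant as a real invertible matrix. -/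
def glM (M : M2) (h : M.det ≠ 0) : GL (Fin 2) ℝ :=
  Matrix.GeneralLinearGroup.mkOfDetNeZero (M.map (Int.cast : ℤ → ℝ)) (by
    rw [show M.map (Int.cast : ℤ → ℝ) = (Int.castRingHom ℝ).mapMatrix M from rfl,
      ← RingHom.map_det]
    simpa using h)

theorem val_glM (M : M2) (h : M.det ≠ 0) :
    ((glM M h : GL (Fin 2) ℝ) : Matrix (Fin 2) (Fin 2) ℝ) = M.map (Int.cast : ℤ → ℝ) := rfl

theorem glM_smul_comm {G : Subgroup SL(2, ℤ)} {γ δ : G} {M M' : M2} (hM : M.det ≠ 0)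
    (hM' : M'.det ≠ 0) (h : M * matOf γ = matOf δ * M') (z : ℍ) :
    glM M hM • ((γ : SL(2, ℤ)) • z) = (δ : SL(2, ℤ)) • (glM M' hM' • z) := by
  have e : glM M hM * Matrix.SpecialLinearGroup.mapGL ℝ (γ : SL(2, ℤ)) =
      Matrix.SpecialLinearGroup.mapGL ℝ (δ : SL(2, ℤ)) * glM M' hM' := by
    refine Units.ext ?_
    rw [Units.val_mul, Units.val_mul, val_glM, val_glM,
      Matrix.SpecialLinearGroup.mapGL_coe_matrix, Matrix.SpecialLinearGroup.mapGL_coe_matrix]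
    have h2 := congrArg (fun X : M2 => X.map (Int.castRingHom ℝ)) h
    simp only [Matrix.map_mul] at h2
    exact h2
  calc glM M hM • ((γ : SL(2, ℤ)) • z)
      = (glM M hM * Matrix.SpecialLinearGroup.mapGL ℝ (γ : SL(2, ℤ))) • z := (mul_smul _ _ z).symm
    _ = (Matrix.SpecialLinearGroup.mapGL ℝ (δ : SL(2, ℤ)) * glM M' hM') • z := by rw [e]
    _ = _ := mul_smul _ _ z

theorem heckeMatrix_eq_glM {N ℓ : ℕ} (hℓ : ℓ ≠ 0) (j : Fin ℓ)
    (h : some j = none → ¬ ℓ ∣ N) (hd : (heckeBeta (N := N) ⟨some j, h⟩).det ≠ 0) :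
    ModularForm.heckeMatrix ℓ (j : ℕ) = glM (heckeBeta (N := N) ⟨some j, h⟩) hd := by
  refine Units.ext ?_
  rw [ModularForm.val_heckeMatrix hℓ, val_glM, heckeBeta_some]
  ext a b
  fin_cases a <;> fin_cases b <;> simp

theorem heckeDiagMatrix_eq_glM {N ℓ : ℕ} (hℓ : ℓ ≠ 0)
    (h : (none : Option (Fin ℓ)) = none → ¬ ℓ ∣ N)
    (hd : (heckeBeta (N := N) ⟨none, h⟩).det ≠ 0) :
    ModularForm.heckeDiagMatrix ℓ = glM (heckeBeta (N := N) ⟨none, h⟩) hd := by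
  refine Units.ext ?_
  rw [ModularForm.val_heckeDiagMatrix hℓ, val_glM, heckeBeta_none]
  ext a b
  fin_cases a <;> fin_cases b <;> simp

/-- The indices when `ℓ ∤ N`. -/
def idxEquivT {N ℓ : ℕ} (h : ¬ ℓ ∣ N) : heckeIdx N ℓ ≃ Option (Fin ℓ) :=
  Equiv.subtypeUnivEquiv fun _ _ => h

theorem sum_heckeIdx_T {N ℓ : ℕ} (h : ¬ ℓ ∣ N) {M : Type*} [AddCommMonoid M]
    (f : heckeIdx N ℓ → M) :
    ∑ i, f i = (∑ j : Fin ℓ, f ⟨some j, fun _ => h⟩) + f ⟨none, fun _ => h⟩ := by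
  rw [← Equiv.sum_comp (idxEquivT h).symm, Fintype.sum_option, add_comm]
  rfl

/-- The indices when `ℓ ∣ N`. -/
def idxEquivU {N ℓ : ℕ} (h : ℓ ∣ N) : Fin ℓ ≃ heckeIdx N ℓ where
  toFun j := ⟨some j, fun e => by simp at e⟩
  invFun i := i.1.get (by
    rcases i with ⟨_ | j, hi⟩
    · exact absurd h (hi rfl)
    · rfl)
  left_inv j := rfl
  right_inv i := by
    rcases i with ⟨_ | j, hi⟩
    · exact absurd h (hi rfl)
    · rfl

theorem sum_heckeIdx_U {N ℓ : ℕ} (h : ℓ ∣ N) {M : Type*} [AddCommMonoid M]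
    (f : heckeIdx N ℓ → M) :
    ∑ i, f i = ∑ j : Fin ℓ, f ⟨some j, fun e => by simp at e⟩ :=
  (Equiv.sum_comp (idxEquivU h) f).symm

/-- The sum of a function over the Hecke translates of a point. -/
def sumTranslates {N ℓ : ℕ} (hℓ : ℓ.Prime) (F : ℍ → ℂ) (z : ℍ) : ℂ :=
  ∑ i : heckeIdx N ℓ, F (glM (heckeBeta i) ((heckeReps N hℓ).det_ne i) • z)

theorem sumTranslates_smul_sub {N ℓ : ℕ} (hℓ : ℓ.Prime) {F : ℍ → ℂ}
    {φ : Additive (Gamma0 N) →+ ℂ}
    (hF : ∀ (γ : Gamma0 N) (z : ℍ), F ((γ : SL(2, ℤ)) • z) - F z = φ (Additive.ofMul γ))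
    (γ : Gamma0 N) (z : ℍ) :
    sumTranslates (N := N) hℓ F ((γ : SL(2, ℤ)) • z) - sumTranslates (N := N) hℓ F z =
      (heckeReps N hℓ).transfer ℂ φ (Additive.ofMul γ) := by
  rw [Reps.transfer_apply, sumTranslates, sumTranslates]
  conv_lhs =>
    arg 2
    rw [← Equiv.sum_comp ((heckeReps N hℓ).permEquiv γ)]
  rw [← Finset.sum_sub_distrib]
  refine Finset.sum_congr rfl fun i _ => ?_
  rw [← hF ((heckeReps N hℓ).coc γ i)]
  congr 1
  exact congrArg F (glM_smul_comm _ _ ((heckeReps N hℓ).spec γ i) z)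

theorem hasDerivAt_translate {F f : ℍ → ℂ}
    (hF : ∀ τ : ℍ, HasDerivAt (F ∘ ofComplex) (f τ) (τ : ℂ)) (g : GL (Fin 2) ℝ) (a b : ℂ)
    (hg : ∀ τ : ℍ, ((g • τ : ℍ) : ℂ) = a * (τ : ℂ) + b) (τ : ℍ) :
    HasDerivAt ((fun z => F (g • z)) ∘ ofComplex) (a * f (g • τ)) (τ : ℂ) := by
  have h1 : HasDerivAt (fun w : ℂ => a * w + b) a (τ : ℂ) := by
    simpa using ((hasDerivAt_id (τ : ℂ)).const_mul a).add_const b
  have h2 : HasDerivAt ((F ∘ ofComplex) ∘ fun w : ℂ => a * w + b) (f (g • τ) * a) (τ : ℂ) := by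
    refine HasDerivAt.comp _ ?_ h1
    rw [← hg]
    exact hF _
  rw [mul_comm]
  refine h2.congr_of_eventuallyEq ?_
  filter_upwards [(isOpen_upperHalfPlaneSet).mem_nhds τ.2] with w hw
  show F (g • ofComplex w) = F (ofComplex (a * w + b))
  rw [ofComplex_apply_of_im_pos hw]
  have := hg ⟨w, hw⟩
  simp only [] at this
  rw [← this, ofComplex_apply]

theorem hasDerivAt_translate_heckeMatrix {F f : ℍ → ℂ}
    (hF : ∀ τ : ℍ, HasDerivAt (F ∘ ofComplex) (f τ) (τ : ℂ)) {p : ℕ} (hp : p ≠ 0) (j : ℕ)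
    (τ : ℍ) :
    HasDerivAt ((fun z => F (ModularForm.heckeMatrix p j • z)) ∘ ofComplex)
      ((p : ℂ)⁻¹ * f (ModularForm.heckeMatrix p j • τ)) (τ : ℂ) :=
  hasDerivAt_translate hF _ _ ((p : ℂ)⁻¹ * (j : ℂ)) (fun z => by
    rw [ModularForm.coe_heckeMatrix_smul hp, div_eq_mul_inv]; ring) τ

theorem hasDerivAt_translate_heckeDiagMatrix {F f : ℍ → ℂ}
    (hF : ∀ τ : ℍ, HasDerivAt (F ∘ ofComplex) (f τ) (τ : ℂ)) {p : ℕ} (hp : p ≠ 0)
    (τ : ℍ) :
    HasDerivAt ((fun z => F (ModularForm.heckeDiagMatrix p • z)) ∘ ofComplex)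
      ((p : ℂ) * f (ModularForm.heckeDiagMatrix p • τ)) (τ : ℂ) :=
  hasDerivAt_translate hF _ _ 0 (fun z => by
    rw [ModularForm.coe_heckeDiagMatrix_smul hp, add_zero]) τ

theorem hasDerivAt_sumTranslates_T {N ℓ : ℕ} (hℓ : ℓ.Prime) (hℓN : ¬ ℓ ∣ N) {F f : ℍ → ℂ}
    (hF : ∀ τ : ℍ, HasDerivAt (F ∘ ofComplex) (f τ) (τ : ℂ)) (τ : ℍ) :
    HasDerivAt (sumTranslates (N := N) hℓ F ∘ ofComplex) (ModularForm.heckeT 2 ℓ f τ) (τ : ℂ) := by
  have hs : sumTranslates (N := N) hℓ F ∘ ofComplex = fun w =>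
      (∑ j : Fin ℓ, ((fun z => F (ModularForm.heckeMatrix ℓ (j : ℕ) • z)) ∘ ofComplex) w) +
        ((fun z => F (ModularForm.heckeDiagMatrix ℓ • z)) ∘ ofComplex) w := by
    funext w
    simp only [Function.comp_apply, sumTranslates]
    rw [sum_heckeIdx_T hℓN]
    congr 1
    · refine Finset.sum_congr rfl fun j _ => ?_
      rw [heckeMatrix_eq_glM (N := N) hℓ.ne_zero j (fun _ => hℓN) (by rw [det_heckeBeta]; exact_mod_cast hℓ.ne_zero)]
    · rw [heckeDiagMatrix_eq_glM (N := N) hℓ.ne_zero (fun _ => hℓN) (by rw [det_heckeBeta]; exact_mod_cast hℓ.ne_zero)]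
  rw [hs, ModularForm.heckeT_apply 2 hℓ.ne_zero, Finset.mul_sum,
    ← Fin.sum_univ_eq_sum_range (fun j => (ℓ : ℂ)⁻¹ * f (ModularForm.heckeMatrix ℓ j • τ)) ℓ,
    show (2 : ℤ) - 1 = 1 from rfl, zpow_one]
  exact (HasDerivAt.fun_sum (u := (Finset.univ : Finset (Fin ℓ))) fun j _ =>
    hasDerivAt_translate_heckeMatrix hF hℓ.ne_zero (j : ℕ) τ).fun_add
      (hasDerivAt_translate_heckeDiagMatrix hF hℓ.ne_zero τ)

theorem hasDerivAt_sumTranslates_U {N ℓ : ℕ} (hℓ : ℓ.Prime) (hℓN : ℓ ∣ N) {F f : ℍ → ℂ}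
    (hF : ∀ τ : ℍ, HasDerivAt (F ∘ ofComplex) (f τ) (τ : ℂ)) (τ : ℍ) :
    HasDerivAt (sumTranslates (N := N) hℓ F ∘ ofComplex) (ModularForm.heckeU 2 ℓ f τ) (τ : ℂ) := by
  have hs : sumTranslates (N := N) hℓ F ∘ ofComplex = fun w =>
      ∑ j : Fin ℓ, ((fun z => F (ModularForm.heckeMatrix ℓ (j : ℕ) • z)) ∘ ofComplex) w := by
    funext w
    simp only [Function.comp_apply, sumTranslates]
    rw [sum_heckeIdx_U hℓN]
    refine Finset.sum_congr rfl fun j _ => ?_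
    rw [heckeMatrix_eq_glM (N := N) hℓ.ne_zero j (fun e => by simp at e)
      (by rw [det_heckeBeta]; exact_mod_cast hℓ.ne_zero)]
  rw [hs, ModularForm.heckeU_apply 2 hℓ.ne_zero, Finset.mul_sum,
    ← Fin.sum_univ_eq_sum_range (fun j => (ℓ : ℂ)⁻¹ * f (ModularForm.heckeMatrix ℓ j • τ)) ℓ]
  exact HasDerivAt.fun_sum fun j _ =>
    hasDerivAt_translate_heckeMatrix hF hℓ.ne_zero (j : ℕ) τ

variable {N : ℕ} [NeZero N] {ℓ : ℕ}

theorem periodMap_eq_transfer {hℓ : ℓ.Prime} {f g : CuspForm (Gamma0 N) 2}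
    (hg : ∀ {F : ℍ → ℂ}, (∀ τ : ℍ, HasDerivAt (F ∘ ofComplex) (f τ) (τ : ℂ)) →
      ∀ τ : ℍ, HasDerivAt (sumTranslates (N := N) hℓ F ∘ ofComplex) (g τ) (τ : ℂ)) :
    periodMap N g = (heckeReps N hℓ).transfer ℂ (periodMap N f) := by
  obtain ⟨F, hF⟩ := Period.exists_hasEquivariantPrimitive f
  refine AddMonoidHom.ext fun γ => ?_
  rw [← ofMul_toMul γ, Period.periodMap_eq_sub g (hg hF.1) (Additive.toMul γ) UpperHalfPlane.I]
  exact sumTranslates_smul_sub hℓ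
    (fun δ z => (Period.periodMap_eq_sub f hF.1 δ z).symm) _ _

/-- Periods intertwine `T_ℓ` with the transfer. -/
theorem periodMap_heckeTLin (hℓ : ℓ.Prime) (hℓN : ¬ ℓ ∣ N) (f : CuspForm (Gamma0 N) 2) :
    periodMap N (CuspForm.heckeTLin 2 hℓ hℓN f) = (heckeReps N hℓ).transfer ℂ (periodMap N f) :=
  periodMap_eq_transfer fun hF τ => by
    rw [CuspForm.heckeTLin_apply_apply]
    exact hasDerivAt_sumTranslates_T hℓ hℓN hF τ

/-- Periods intertwine `U_ℓ` with the transfer. -/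
theorem periodMap_heckeULin (hℓ : ℓ.Prime) (hℓN : ℓ ∣ N) (f : CuspForm (Gamma0 N) 2) :
    periodMap N (CuspForm.heckeULin 2 hℓN f) = (heckeReps N hℓ).transfer ℂ (periodMap N f) :=
  periodMap_eq_transfer fun hF τ => by
    rw [CuspForm.heckeULin_apply_apply]
    exact hasDerivAt_sumTranslates_U hℓ hℓN hF τ

theorem periodHomPair_of_periodMap {hℓ : ℓ.Prime} {T : Module.End ℂ (CuspForm (Gamma0 N) 2)}
    (hT : ∀ f, periodMap N (T f) = (heckeReps N hℓ).transfer ℂ (periodMap N f))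
    (p : CuspForm (Gamma0 N) 2 × CuspForm (Gamma0 N) 2) :
    periodHomPair N (T p.1, T p.2) = (heckeReps N hℓ).transfer ℂ (periodHomPair N p) := by
  rw [← Prod.mk.eta (p := p), Period.periodHomPair_apply, Period.periodHomPair_apply, hT, hT,
    map_add, map_add, map_sub, charInvolution_transfer, charInvolution_transfer]

theorem periodHomPair_heckeTLin (hℓ : ℓ.Prime) (hℓN : ¬ ℓ ∣ N)
    (p : CuspForm (Gamma0 N) 2 × CuspForm (Gamma0 N) 2) :
    periodHomPair N (CuspForm.heckeTLin 2 hℓ hℓN p.1, CuspForm.heckeTLin 2 hℓ hℓN p.2) =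
      (heckeReps N hℓ).transfer ℂ (periodHomPair N p) :=
  periodHomPair_of_periodMap (periodMap_heckeTLin hℓ hℓN) p

theorem periodHomPair_heckeULin (hℓ : ℓ.Prime) (hℓN : ℓ ∣ N)
    (p : CuspForm (Gamma0 N) 2 × CuspForm (Gamma0 N) 2) :
    periodHomPair N (CuspForm.heckeULin 2 hℓN p.1, CuspForm.heckeULin 2 hℓN p.2) =
      (heckeReps N hℓ).transfer ℂ (periodHomPair N p) :=
  periodHomPair_of_periodMap (periodMap_heckeULin hℓ hℓN) p

end FLTAgent.HeckeH
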