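/-
The action of the Hecke algebra `heckeAlgebra N 2 ∅` on `H N R A` for every coefficient module.
-/
import Fermat.Agent.HeckeH.Periods
import Fermat.Agent.HeckeH.Input
import Fermat.Agent.Period.Lattice

/-!
# The Hecke algebra acting on `Period.H N R A`

Integer matrices act on `H N R A` through the coordinates `Period.evalEquiv` (`matAct`). Every
element of the weight two Hecke algebra has a unique such matrix intertwining it through periods
(`exists_intertwines`, by induction over the adjoined generators), giving the injective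
`heckeMatHom` and the action `heckeEnd`, which is `heckeH` on `T_ℓ` and `U_q` (`heckeEnd_T`,
`heckeEnd_U`) and commutes with the involution `jH` (`heckeEnd_jH`).
-/

set_option autoImplicit false
set_option linter.unusedSectionVars false

open CongruenceSubgroup ModularCurve ModularCurve.Period
open scoped MatrixGroups

noncomputable section

namespace FLTAgent.HeckeH

variable (N : ℕ) [NeZero N]

/-- Integer matrices in the coordinates `Period.gen`. -/
abbrev HMat : Type := Matrix (Fin (Period.rankH N)) (Fin (Period.rankH N)) ℤ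

section MatAct

variable (R A : Type*) [Semiring R] [AddCommGroup A] [Module R A]

/-- Matrices acting on `Fin r → A`. -/
def matFun (M : HMat N) : Module.End R (Fin (Period.rankH N) → A) where
  toFun x i := ∑ j, M i j • x j
  map_add' x y := by ext i; simp [smul_add, Finset.sum_add_distrib]
  map_smul' r x := by ext i; simp [Finset.smul_sum, smul_comm r]

theorem matFun_apply (M : HMat N) (x : Fin (Period.rankH N) → A) (i : Fin (Period.rankH N)) :
    matFun N R A M x i = ∑ j, M i j • x j := rfl

theorem matFun_one : matFun N R A 1 = 1 := by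
  refine LinearMap.ext fun x => funext fun i => ?_
  rw [matFun_apply, Finset.sum_eq_single i]
  · simp
  · intro j _ hj; simp [Matrix.one_apply_ne hj.symm]
  · intro h; exact absurd (Finset.mem_univ i) h

theorem matFun_mul (M M' : HMat N) :
    matFun N R A (M * M') = matFun N R A M * matFun N R A M' := by
  refine LinearMap.ext fun x => funext fun i => ?_
  rw [Module.End.mul_apply, matFun_apply, matFun_apply]
  simp only [matFun_apply, Matrix.mul_apply, Finset.smul_sum, Finset.sum_smul, mul_smul]
  exact Finset.sum_comm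

theorem matFun_add (M M' : HMat N) :
    matFun N R A (M + M') = matFun N R A M + matFun N R A M' := by
  refine LinearMap.ext fun x => funext fun i => ?_
  simp [matFun_apply, add_smul, Finset.sum_add_distrib]

/-- Integer matrices acting on `H N R A` through the coordinates `Period.evalEquiv`. -/
def matAct : HMat N →+* Module.End R (Period.H N R A) where
  toFun M := (Period.evalEquiv N R A).symm.toLinearMap ∘ₗ matFun N R A M ∘ₗ
    (Period.evalEquiv N R A).toLinearMap
  map_one' := by ext φ; simp [matFun_one]
  map_mul' M M' := by ext φ; simp [matFun_mul, Module.End.mul_apply]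
  map_zero' := by
    have h0 : matFun N R A 0 = 0 := by ext x i; simp [matFun_apply]
    ext φ; simp [h0]
  map_add' M M' := by ext φ; simp [matFun_add]

theorem evalEquiv_matAct (M : HMat N) (φ : Period.H N R A) (i : Fin (Period.rankH N)) :
    Period.evalEquiv N R A (matAct N R A M φ) i =
      ∑ j, M i j • Period.evalEquiv N R A φ j := by
  simp [matAct, matFun_apply]

/-- A value of `matAct` at an element of `Γ₀(N)`. -/
theorem matAct_apply (M : HMat N) (φ : Period.H N R A) (γ : Additive (Gamma0 N)) :
    (matAct N R A M φ : Additive (Gamma0 N) →+ A) γ =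
      ∑ i, (Period.coordH N i : Additive (Gamma0 N) →+ ℤ) γ •
        ∑ j, M i j • (φ : Additive (Gamma0 N) →+ A) (Additive.ofMul (Period.gen N j)) := by
  rw [Period.H_decomp]
  simp only [← Period.evalEquiv_apply, evalEquiv_matAct]

end MatAct

/-- `matAct` is natural in the coefficients. -/
theorem matAct_comp {R A R' A' : Type*} [Semiring R] [AddCommGroup A] [Module R A] [Semiring R']
    [AddCommGroup A'] [Module R' A'] (g : A →+ A') (φ : Period.H N R A) (ψ : Period.H N R' A')
    (h : (ψ : Additive (Gamma0 N) →+ A') = g.comp (φ : Additive (Gamma0 N) →+ A)) (M : HMat N) :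
    (matAct N R' A' M ψ : Additive (Gamma0 N) →+ A') =
      g.comp (matAct N R A M φ : Additive (Gamma0 N) →+ A) := by
  refine AddMonoidHom.ext fun γ => ?_
  rw [AddMonoidHom.comp_apply, matAct_apply, matAct_apply, h]
  simp [map_sum, map_zsmul]

theorem matAct_int_apply (M : HMat N) (i j : Fin (Period.rankH N)) :
    (matAct N ℤ ℤ M (Period.coordH N j) : Additive (Gamma0 N) →+ ℤ)
      (Additive.ofMul (Period.gen N i)) = M i j := by
  rw [← Period.evalEquiv_apply, evalEquiv_matAct, Finset.sum_eq_single j]
  · rw [Period.evalEquiv_apply, Period.coordH_gen, if_pos rfl]; simp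
  · intro k _ hk; rw [Period.evalEquiv_apply, Period.coordH_gen, if_neg (Ne.symm hk)]; simp
  · intro h; exact absurd (Finset.mem_univ j) h

section TransferMat

variable {N} {ι : Type} [Fintype ι] (B : Reps (Gamma0 N) ι)

/-- The matrix of a transfer operator. -/
def transferMat : HMat N := Matrix.of fun i j =>
  B.transfer ℤ (Period.coordH N j : Additive (Gamma0 N) →+ ℤ) (Additive.ofMul (Period.gen N i))

theorem matAct_transferMat (R A : Type*) [Semiring R] [AddCommGroup A] [Module R A] :
    matAct N R A (transferMat B) = B.transferH R := by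
  refine LinearMap.ext fun φ => (Period.evalEquiv N R A).injective (funext fun i => ?_)
  rw [evalEquiv_matAct, Period.evalEquiv_apply, Reps.coe_transferH, Reps.transfer_apply]
  simp only [transferMat, Matrix.of_apply, Reps.transfer_apply, Finset.sum_smul,
    Period.evalEquiv_apply]
  rw [Finset.sum_comm]
  exact Finset.sum_congr rfl fun k _ => (Period.H_decomp φ _).symm

end TransferMat

/-- The period isomorphism with values in `H N ℂ ℂ`. -/
def ppH : (CuspForm (Gamma0 N) 2 × CuspForm (Gamma0 N) 2) →ₗ[ℂ] Period.H N ℂ ℂ :=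
  (periodHomPair N).codRestrict _ Period.periodHomPair_mem_H

@[simp]
theorem coe_ppH (p : CuspForm (Gamma0 N) 2 × CuspForm (Gamma0 N) 2) :
    (ppH N p : Additive (Gamma0 N) →+ ℂ) = periodHomPair N p := rfl

theorem ppH_injective : Function.Injective (ppH N) := fun _ _ h =>
  Period.periodHomPair_injective (congrArg Subtype.val h)

theorem ppH_surjective : Function.Surjective (ppH N) := by
  intro φ
  have h : (φ : Additive (Gamma0 N) →+ ℂ) ∈ LinearMap.range (periodHomPair N) := by
    rw [Period.range_periodHomPair (finrank_cuspForm_two_eq N)]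
    exact φ.2.1
  obtain ⟨p, hp⟩ := h
  exact ⟨p, Subtype.ext hp⟩

/-- `M` is the matrix on `H` of the operator `t` on cusp forms. -/
def Intertwines (t : Module.End ℂ (CuspForm (Gamma0 N) 2)) (M : HMat N) : Prop :=
  ∀ p : CuspForm (Gamma0 N) 2 × CuspForm (Gamma0 N) 2,
    matAct N ℂ ℂ M (ppH N p) = ppH N (t p.1, t p.2)

theorem intertwines_transfer {ℓ : ℕ} (hℓ : ℓ.Prime) {t : Module.End ℂ (CuspForm (Gamma0 N) 2)}
    (h : ∀ p : CuspForm (Gamma0 N) 2 × CuspForm (Gamma0 N) 2,
      periodHomPair N (t p.1, t p.2) = (heckeReps N hℓ).transfer ℂ (periodHomPair N p)) :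
    Intertwines N t (transferMat (heckeReps N hℓ)) := fun p => by
  rw [matAct_transferMat]
  exact Subtype.ext (h p).symm

theorem Intertwines.mul {t s : Module.End ℂ (CuspForm (Gamma0 N) 2)} {M M' : HMat N}
    (h : Intertwines N t M) (h' : Intertwines N s M') : Intertwines N (t * s) (M * M') := fun p => by
  rw [map_mul, Module.End.mul_apply, h' p, h]
  rfl

theorem Intertwines.add {t s : Module.End ℂ (CuspForm (Gamma0 N) 2)} {M M' : HMat N}
    (h : Intertwines N t M) (h' : Intertwines N s M') : Intertwines N (t + s) (M + M') := fun p => by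
  rw [map_add, LinearMap.add_apply, h p, h' p, ← map_add]
  rfl

theorem Intertwines.intCast (n : ℤ) :
    Intertwines N (algebraMap ℤ (Module.End ℂ (CuspForm (Gamma0 N) 2)) n) (n : HMat N) := fun p => by
  rw [map_intCast, Module.End.intCast_apply, eq_intCast, Module.End.intCast_apply,
    Module.End.intCast_apply, ← map_zsmul]
  rfl

/-- Every Hecke operator has an integer matrix on periods. -/
theorem exists_intertwines (t : CuspForm.heckeAlgebra N 2 ∅) :
    ∃ M : HMat N, Intertwines N (t : Module.End ℂ (CuspForm (Gamma0 N) 2)) M := by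
  obtain ⟨t, ht⟩ := t
  show ∃ M : HMat N, Intertwines N t M
  induction ht using Algebra.adjoin_induction with
  | mem x hx =>
    rcases hx with ⟨ℓ, hℓ, hℓN, -, rfl⟩ | ⟨q, hqN, hq, -, rfl⟩
    · exact ⟨_, intertwines_transfer N hℓ (periodHomPair_heckeTLin hℓ hℓN)⟩
    · exact ⟨_, intertwines_transfer N hq (periodHomPair_heckeULin hq hqN)⟩
  | algebraMap n => exact ⟨_, Intertwines.intCast N n⟩
  | add x y _ _ hx hy => exact ⟨_, hx.choose_spec.add N hy.choose_spec⟩
  | mul x y _ _ hx hy => exact ⟨_, hx.choose_spec.mul N hy.choose_spec⟩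

theorem matAct_complex_injective : Function.Injective (matAct N ℂ ℂ) := by
  intro M M' h
  ext i j
  have h2 := congrArg (fun f : Module.End ℂ (Period.H N ℂ ℂ) =>
    Period.evalEquiv N ℂ ℂ (f ((Period.evalEquiv N ℂ ℂ).symm (Pi.single j 1))) i) h
  simpa [evalEquiv_matAct, Pi.single_apply, zsmul_eq_mul] using h2

theorem Intertwines.unique {t : Module.End ℂ (CuspForm (Gamma0 N) 2)} {M M' : HMat N}
    (h : Intertwines N t M) (h' : Intertwines N t M') : M = M' := by
  refine matAct_complex_injective N (LinearMap.ext fun φ => ?_)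
  obtain ⟨p, rfl⟩ := ppH_surjective N φ
  rw [h p, h' p]

/-- The matrix of a Hecke operator on the period lattice. -/
def heckeMat (t : CuspForm.heckeAlgebra N 2 ∅) : HMat N := (exists_intertwines N t).choose

theorem heckeMat_spec (t : CuspForm.heckeAlgebra N 2 ∅) :
    Intertwines N (t : Module.End ℂ (CuspForm (Gamma0 N) 2)) (heckeMat N t) :=
  (exists_intertwines N t).choose_spec

theorem heckeMat_eq {t : CuspForm.heckeAlgebra N 2 ∅} {M : HMat N}
    (h : Intertwines N (t : Module.End ℂ (CuspForm (Gamma0 N) 2)) M) : heckeMat N t = M :=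
  (heckeMat_spec N t).unique N h

/-- The Hecke algebra as integer matrices. -/
def heckeMatHom : CuspForm.heckeAlgebra N 2 ∅ →+* HMat N where
  toFun := heckeMat N
  map_one' := heckeMat_eq N fun p => by simp
  map_mul' t s := heckeMat_eq N (by
    have := (heckeMat_spec N t).mul N (heckeMat_spec N s)
    simpa using this)
  map_zero' := heckeMat_eq N fun p => by simp [Prod.mk_zero_zero]
  map_add' t s := heckeMat_eq N (by
    have := (heckeMat_spec N t).add N (heckeMat_spec N s)
    simpa using this)

theorem heckeMatHom_injective : Function.Injective (heckeMatHom N) := by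
  intro t s h
  refine Subtype.ext (LinearMap.ext fun f => ?_)
  have ht := heckeMat_spec N t (f, f)
  have hs := heckeMat_spec N s (f, f)
  change heckeMat N t = heckeMat N s at h
  rw [h, hs] at ht
  exact (congrArg Prod.fst (ppH_injective N ht)).symm

/-- The action of the Hecke algebra on `H N R A`. -/
def heckeEnd (R A : Type*) [Semiring R] [AddCommGroup A] [Module R A] :
    CuspForm.heckeAlgebra N 2 ∅ →+* Module.End R (Period.H N R A) :=
  (matAct N R A).comp (heckeMatHom N)

theorem heckeEnd_T {ℓ : ℕ} (hℓ : ℓ.Prime) (hℓN : ¬ ℓ ∣ N) (hℓS : ℓ ∉ (∅ : Set ℕ)) (R A : Type*)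
    [Semiring R] [AddCommGroup A] [Module R A] :
    heckeEnd N R A (CuspForm.heckeAlgebra.T hℓ hℓN hℓS) = heckeH N hℓ R A := by
  show matAct N R A (heckeMat N _) = _
  rw [heckeMat_eq N (t := CuspForm.heckeAlgebra.T hℓ hℓN hℓS)
    (intertwines_transfer N hℓ (periodHomPair_heckeTLin hℓ hℓN)), matAct_transferMat]
  rfl

theorem heckeEnd_U {q : ℕ} (hq : q.Prime) (hqN : q ∣ N) (hqS : q ∉ (∅ : Set ℕ)) (R A : Type*)
    [Semiring R] [AddCommGroup A] [Module R A] :
    heckeEnd N R A (CuspForm.heckeAlgebra.U hq hqN hqS) = heckeH N hq R A := by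
  show matAct N R A (heckeMat N _) = _
  rw [heckeMat_eq N (t := CuspForm.heckeAlgebra.U hq hqN hqS)
    (intertwines_transfer N hq (periodHomPair_heckeULin hq hqN)), matAct_transferMat]
  rfl

/-- `heckeEnd` is natural in the coefficients. -/
theorem heckeEnd_comp {R A R' A' : Type*} [Semiring R] [AddCommGroup A] [Module R A] [Semiring R']
    [AddCommGroup A'] [Module R' A'] (g : A →+ A') (φ : Period.H N R A) (ψ : Period.H N R' A')
    (h : (ψ : Additive (Gamma0 N) →+ A') = g.comp (φ : Additive (Gamma0 N) →+ A))
    (t : CuspForm.heckeAlgebra N 2 ∅) :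
    (heckeEnd N R' A' t ψ : Additive (Gamma0 N) →+ A') =
      g.comp (heckeEnd N R A t φ : Additive (Gamma0 N) →+ A) :=
  matAct_comp N g φ ψ h _

theorem heckeEnd_castH (R : Type*) [CommRing R] (t : CuspForm.heckeAlgebra N 2 ∅)
    (φ : Period.H N ℤ ℤ) :
    heckeEnd N R R t (Period.castH N R φ) = Period.castH N R (heckeEnd N ℤ ℤ t φ) :=
  Subtype.ext (heckeEnd_comp N (Int.castAddHom R) φ (Period.castH N R φ) rfl t)

/-- Periods intertwine the two actions. -/
theorem heckeEnd_ppH (t : CuspForm.heckeAlgebra N 2 ∅)
    (p : CuspForm (Gamma0 N) 2 × CuspForm (Gamma0 N) 2) :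
    heckeEnd N ℂ ℂ t (ppH N p) =
      ppH N ((t : Module.End ℂ (CuspForm (Gamma0 N) 2)) p.1,
        (t : Module.End ℂ (CuspForm (Gamma0 N) 2)) p.2) :=
  heckeMat_spec N t p

/-- The Hecke algebra acts faithfully on the period lattice. -/
theorem heckeEnd_injective : Function.Injective (heckeEnd N ℤ ℤ) := by
  intro t s h
  refine heckeMatHom_injective N ?_
  ext i j
  rw [← matAct_int_apply N (heckeMatHom N t) i j, ← matAct_int_apply N (heckeMatHom N s) i j]
  exact congrArg (fun f : Module.End ℤ (Period.H N ℤ ℤ) =>
    (f (Period.coordH N j) : Additive (Gamma0 N) →+ ℤ) (Additive.ofMul (Period.gen N i))) h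

/-- The involution induced by `charInvolution` on `H N R A`. -/
def jH (R A : Type*) [Semiring R] [AddCommGroup A] [Module R A] :
    Module.End R (Period.H N R A) :=
  (charInvolution N R A).restrict fun _ => Period.charInvolution_mem_H

@[simp]
theorem coe_jH (R A : Type*) [Semiring R] [AddCommGroup A] [Module R A] (φ : Period.H N R A) :
    (jH N R A φ : Additive (Gamma0 N) →+ A) =
      charInvolution N R A (φ : Additive (Gamma0 N) →+ A) := rfl

/-- The matrix of the involution. -/
def jMat : HMat N := Matrix.of fun i j =>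
  (jH N ℤ ℤ (Period.coordH N j) : Additive (Gamma0 N) →+ ℤ) (Additive.ofMul (Period.gen N i))

theorem matAct_jMat (R A : Type*) [Semiring R] [AddCommGroup A] [Module R A] :
    matAct N R A (jMat N) = jH N R A := by
  refine LinearMap.ext fun φ => (Period.evalEquiv N R A).injective (funext fun i => ?_)
  rw [evalEquiv_matAct, Period.evalEquiv_apply, coe_jH, charInvolution_apply,
    Period.H_decomp φ]
  simp [jMat, Period.evalEquiv_apply, charInvolution_apply]

theorem jH_ppH (p : CuspForm (Gamma0 N) 2 × CuspForm (Gamma0 N) 2) :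
    jH N ℂ ℂ (ppH N p) = ppH N (p.1, -p.2) := by
  refine Subtype.ext ?_
  obtain ⟨f, g⟩ := p
  rw [coe_jH, coe_ppH, coe_ppH]
  have h1 : periodHomPair N (f, -g) = periodHomPair N (f, 0) - periodHomPair N (0, g) := by
    rw [← map_sub]; congr 1; simp
  have h2 : periodHomPair N (f, g) = periodHomPair N (f, 0) + periodHomPair N (0, g) := by
    rw [← map_add]; congr 1; simp
  have h0 : periodMap N (0 : CuspForm (Gamma0 N) 2) = 0 := (Period.periodLinear N).map_zero
  rw [h1, h2, Period.periodHomPair_apply, Period.periodHomPair_apply, h0]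
  simp only [map_zero, map_add, map_sub, charInvolution_charInvolution, add_zero, zero_add,
    sub_zero]
  abel

theorem heckeMat_comm_jMat (t : CuspForm.heckeAlgebra N 2 ∅) :
    heckeMat N t * jMat N = jMat N * heckeMat N t := by
  refine matAct_complex_injective N (LinearMap.ext fun φ => ?_)
  obtain ⟨p, rfl⟩ := ppH_surjective N φ
  rw [map_mul, map_mul, matAct_jMat, Module.End.mul_apply, Module.End.mul_apply, jH_ppH,
    heckeMat_spec N t, heckeMat_spec N t, jH_ppH, map_neg]

/-- The Hecke action commutes with the involution. -/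
theorem heckeEnd_jH (R A : Type*) [Semiring R] [AddCommGroup A] [Module R A]
    (t : CuspForm.heckeAlgebra N 2 ∅) (φ : Period.H N R A) :
    heckeEnd N R A t (jH N R A φ) = jH N R A (heckeEnd N R A t φ) := by
  rw [← matAct_jMat]
  show (matAct N R A (heckeMat N t) * matAct N R A (jMat N)) φ =
    (matAct N R A (jMat N) * matAct N R A (heckeMat N t)) φ
  rw [← map_mul, ← map_mul, heckeMat_comm_jMat]

end FLTAgent.HeckeH
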