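/-
The embedding `y ↦ expansion of ev y (γ z)` of the function field of level `M` at each cusp, and
separation of the cosets of `Γ₀(M)` by it.
-/
import Fermat.Agent.Modular.ModFun
import Fermat.Agent.HeckeH.Periods
import Fermat.Agent.ModularCosets.Series

/-!
# Expansions of level `M` functions at all cusps

`cuspHom γ` is the embedding of the function field of level `M` into Laurent series given by the
expansion of `y (γ z)` in `exp (2πi z / M)`; equal images mean equal translates
(`comp_eq_of_cuspHom_eq`). `mem_Gamma0_of_jMulFun_smul`: only elements of `Γ₀(M)` fix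
`z ↦ j (M z)`, by comparing leading exponents through Hermite normal form.
-/

set_option autoImplicit false

open UpperHalfPlane CongruenceSubgroup Filter Topology ModularCurve
open scoped MatrixGroups

noncomputable section

namespace FLTAgent.HeckeH

open FLTAgent.Modular

variable {M : ℕ} [NeZero M]

theorem natCast_pos_real (M : ℕ) [NeZero M] : (0 : ℝ) < M :=
  Nat.cast_pos.mpr (Nat.pos_of_ne_zero (NeZero.ne M))

/-- The expansion of `ev y (γ z)` in `exp (2πi z / M)`. -/
def cuspSer (γ : SL(2, ℤ)) (y : FC M) : LaurentSeries ℂ :=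
  ((isModFun_ev y).exists_hasQExp γ).choose

theorem hasQExp_cuspSer (γ : SL(2, ℤ)) (y : FC M) :
    HasQExp M (fun z => ev (y : LaurentSeries ℂ) (γ • z)) (cuspSer γ y) :=
  ((isModFun_ev y).exists_hasQExp γ).choose_spec

theorem cuspSer_eq {γ : SL(2, ℤ)} {y : FC M} {s : LaurentSeries ℂ}
    (h : HasQExp M (fun z => ev (y : LaurentSeries ℂ) (γ • z)) s) : cuspSer γ y = s :=
  (hasQExp_cuspSer γ y).unique (natCast_pos_real M) h

/-- `cuspSer` as a homomorphism of algebras. -/
def cuspHom (γ : SL(2, ℤ)) : FC M →ₐ[ℂ] LaurentSeries ℂ where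
  toFun := cuspSer γ
  map_one' := cuspSer_eq (by
    have h : ev ((1 : FC M) : LaurentSeries ℂ) = fun _ => 1 := ev_one'
    rw [h]; exact hasQExp_one _)
  map_zero' := cuspSer_eq (by
    have h : ev ((0 : FC M) : LaurentSeries ℂ) = fun _ => 0 := ev_zero'
    rw [h]; exact hasQExp_zero _)
  map_mul' x y := cuspSer_eq (by
    have h := ((hasQExp_cuspSer γ x).mul (hasQExp_cuspSer γ y)).nfH (natCast_pos_real M)
    have e : (fun z => ev ((x * y : FC M) : LaurentSeries ℂ) (γ • z)) =
        nfH ((fun z => ev (x : LaurentSeries ℂ) (γ • z)) *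
          fun z => ev (y : LaurentSeries ℂ) (γ • z)) := by
      rw [ev_mul]
      exact (nfH_comp_glSmul ((isMero_ev x).raw.mul (isMero_ev y).raw) (det_pos_SL γ)).symm
    rw [e]; exact h)
  map_add' x y := cuspSer_eq (by
    have h := ((hasQExp_cuspSer γ x).add (hasQExp_cuspSer γ y)).nfH (natCast_pos_real M)
    have e : (fun z => ev ((x + y : FC M) : LaurentSeries ℂ) (γ • z)) =
        nfH ((fun z => ev (x : LaurentSeries ℂ) (γ • z)) +
          fun z => ev (y : LaurentSeries ℂ) (γ • z)) := by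
      rw [ev_add]
      exact (nfH_comp_glSmul ((isMero_ev x).raw.add (isMero_ev y).raw) (det_pos_SL γ)).symm
    rw [e]; exact h)
  commutes' c := cuspSer_eq (by
    rw [ev_algebraMap_apply]; exact hasQExp_const _ c)

theorem cuspHom_apply (γ : SL(2, ℤ)) (y : FC M) : cuspHom γ y = cuspSer γ y := rfl

theorem hasQExp_cuspHom (γ : SL(2, ℤ)) (y : FC M) :
    HasQExp M (fun z => ev (y : LaurentSeries ℂ) (γ • z)) (cuspHom γ y) :=
  hasQExp_cuspSer γ y

/-- Equal expansions at two cusps mean equal functions. -/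
theorem comp_eq_of_cuspHom_eq {γ γ' : SL(2, ℤ)} {y : FC M} (h : cuspHom γ y = cuspHom γ' y) :
    (fun z => ev (y : LaurentSeries ℂ) (γ • z)) = fun z => ev (y : LaurentSeries ℂ) (γ' • z) :=
  ((isMero_ev y).comp_sl γ).eq_of_hasQExp (natCast_pos_real M) ((isMero_ev y).comp_sl γ')
    (hasQExp_cuspHom γ y) (h ▸ hasQExp_cuspHom γ' y)

theorem coeff_coeffEmb_jq_neg_one : (coeffEmb ℂ jq).coeff (-1) = 1 := by
  rw [coeffEmb, ← jqModC_rat, coeffMap_jqModC, coeff_jqModC_neg_one]

theorem coeff_coeffEmb_jq_of_lt {k : ℤ} (hk : k < -1) : (coeffEmb ℂ jq).coeff k = 0 := by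
  have h := ModularCurve.coeff_jqModC_pow_of_lt ℂ (b := 1) (m := k) (by simpa using hk)
  rw [coeffEmb, ← jqModC_rat, coeffMap_jqModC]
  simpa using h

theorem glM_diagOne_eq (d : ℕ) [NeZero d] (h : (ModularCosets.diagOne (d : ℤ)).det ≠ 0) :
    glM (ModularCosets.diagOne (d : ℤ)) h = ModularForm.heckeDiagMatrix d := by
  refine Units.ext ?_
  rw [ModularForm.val_heckeDiagMatrix (NeZero.ne d), val_glM]
  ext a b
  fin_cases a <;> fin_cases b <;> simp [ModularCosets.diagOne]

/-- `z ↦ j (M z)` is fixed only by `Γ₀(M)`. -/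
theorem mem_Gamma0_of_jMulFun_smul (h : SL(2, ℤ))
    (hh : ∀ z : ℍ, jMulFun M (h • z) = jMulFun M z) : h ∈ Gamma0 M := by
  obtain ⟨g, a, b, D, haD, hbD, hM⟩ :=
    ModularCosets.exists_hnf (ModularCosets.diagOne M * (h : Matrix (Fin 2) (Fin 2) ℤ)) M
      (NeZero.ne M) (by simp [ModularCosets.det_diagOne])
  have ha0 : a ≠ 0 := fun e => NeZero.ne M (by rw [← haD, e, zero_mul])
  have hD0 : D ≠ 0 := by omega
  have : NeZero a := ⟨ha0⟩
  have : NeZero D := ⟨hD0⟩
  have hu0 : (ModularCosets.upperTri (a : ℤ) b D).det ≠ 0 := by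
    rw [ModularCosets.det_upperTri]
    exact mul_ne_zero (by exact_mod_cast ha0) (by exact_mod_cast hD0)
  have hd0 : (ModularCosets.diagOne (M : ℤ)).det ≠ 0 := by
    rw [ModularCosets.det_diagOne]; exact_mod_cast NeZero.ne M
  have hg0 : ((g : M2)).det ≠ 0 := by rw [g.2]; exact one_ne_zero
  have hh0 : ((h : M2)).det ≠ 0 := by rw [h.2]; exact one_ne_zero
  have hP : (ModularCosets.diagOne (M : ℤ) * (h : M2)).det ≠ 0 := by
    rw [Matrix.det_mul, h.2, mul_one]; exact hd0
  have hupos : 0 < (ModularCosets.upperTri (a : ℤ) b D).det := by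
    rw [ModularCosets.det_upperTri]
    exact mul_pos (by exact_mod_cast Nat.pos_of_ne_zero ha0)
      (by exact_mod_cast Nat.pos_of_ne_zero hD0)
  let φ : ℍ → ℍ := fun z => glM _ hu0 • z
  have hφ : ∀ z : ℍ, ((φ z : ℍ) : ℂ) = ((a : ℂ) * z + ((b : ℤ) : ℂ)) / D := fun z => by
    rw [coe_smul_of_det_pos]
    · simp [num, denom, val_glM, ModularCosets.upperTri]
    · rw [Matrix.GeneralLinearGroup.val_det_apply, val_glM,
        show (ModularCosets.upperTri (a : ℤ) b D).map (Int.cast : ℤ → ℝ) =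
          (Int.castRingHom ℝ).mapMatrix (ModularCosets.upperTri (a : ℤ) b D) from rfl,
        ← RingHom.map_det]
      simpa using hupos
  have hj : ∀ z : ℍ, jMulFun M (h • z) = jFun (φ z) := fun z => by
    rw [jMulFun, ← glM_diagOne_eq M hd0]
    show jFun (glM _ hd0 • (h • z)) = _
    have e1 : glM _ hd0 • (h • z) = g • φ z := by
      have hSL : ∀ (s : SL(2, ℤ)) (hs : ((s : M2)).det ≠ 0) (w : ℍ), glM (s : M2) hs • w = s • w := by
        intro s hs w
        show _ = (Matrix.SpecialLinearGroup.mapGL ℝ s) • w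
        congr 1
        refine Units.ext ?_
        rw [val_glM, Matrix.SpecialLinearGroup.mapGL_coe_matrix]
        rfl
      have hmul : ∀ {A B C : M2} (hA : A.det ≠ 0) (hB : B.det ≠ 0) (hC : C.det ≠ 0), C = A * B →
          ∀ w : ℍ, glM C hC • w = glM A hA • (glM B hB • w) := by
        intro A B C hA hB hC e w
        rw [← mul_smul]
        congr 1
        refine Units.ext ?_
        rw [Units.val_mul, val_glM, val_glM, val_glM, e,
          show (A * B).map (Int.cast : ℤ → ℝ) = (Int.castRingHom ℝ).mapMatrix (A * B) from rfl,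
          map_mul]
        rfl
      rw [← hSL h hh0 z, ← hmul hd0 hh0 hP rfl z, hmul hg0 hu0 hP hM z, hSL g hg0]
    rw [e1, jFun_smul]
  -- expansion of both sides in `exp (2πi z / M)`
  have e1 := ((hasQExp_jFun.comp_affine one_ne_zero a D (b : ℤ) (φ := φ) hφ).qExpand a)
  rw [show (a : ℝ) * ((D : ℝ) * 1) = M by rw [mul_one, ← Nat.cast_mul, haD]] at e1
  have e2 : HasQExp M (jMulFun M) (qExpand ℂ M (coeffEmb ℂ (qExpand ℚ M jq))) := by
    simpa using (hasQExp_jMulFun M).qExpand M
  have e3 : HasQExp M (jMulFun M) _ :=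
    e1.congr (Eventually.of_forall fun z => ((hj z).symm.trans (hh z)))
  have heq := e3.unique (natCast_pos_real M) e2
  have hc : ∀ x : LaurentSeries ℚ, coeffEmb ℂ (qExpand ℚ M x) = qExpand ℂ M (coeffEmb ℂ x) :=
    fun x => ModularCurve.coeffMap_qExpand _ M x
  rw [hc] at heq
  have h1 := congrArg (fun s : LaurentSeries ℂ => s.coeff ((M : ℤ) * ((M : ℤ) * (-1)))) heq
  simp only [qExpand_coeff_mul, coeff_coeffEmb_jq_neg_one] at h1
  have hMsq : a = M := by
    by_cases hd : (a : ℤ) ∣ (M : ℤ) * ((M : ℤ) * (-1))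
    · obtain ⟨u, hu⟩ := hd
      rw [hu, qExpand_coeff_mul] at h1
      by_cases hd' : (a : ℤ) ∣ u
      · obtain ⟨v, rfl⟩ := hd'
        rw [qExpand_coeff_mul, twistSeries_coeff] at h1
        have hv : -1 ≤ v := by
          by_contra hlt
          rw [coeff_coeffEmb_jq_of_lt (not_le.mp hlt), mul_zero] at h1
          exact zero_ne_one h1
        have haM : a ≤ M := Nat.le_of_dvd (Nat.pos_of_ne_zero (NeZero.ne M)) (Dvd.intro D haD)
        have ha1 : (1 : ℤ) ≤ a := by exact_mod_cast Nat.pos_of_ne_zero ha0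
        have hM1 : (1 : ℤ) ≤ M := by exact_mod_cast Nat.pos_of_ne_zero (NeZero.ne M)
        have haM' : (a : ℤ) ≤ M := by exact_mod_cast haM
        have : (M : ℤ) * M ≤ (a : ℤ) * a := by nlinarith
        have : (M : ℤ) ≤ a := by nlinarith
        omega
      · rw [qExpand_coeff_of_not_dvd a _ hd'] at h1
        exact absurd h1 zero_ne_one
    · rw [qExpand_coeff_of_not_dvd a _ hd] at h1
      exact absurd h1 zero_ne_one
  have hD1 : D = 1 := by
    subst hMsq
    exact Nat.eq_of_mul_eq_mul_left (Nat.pos_of_ne_zero ha0) (by rw [haD, mul_one])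
  have hb0 : b = 0 := by omega
  subst hMsq hD1 hb0
  have h10 := congrFun (congrFun hM 1) 0
  simp [ModularCosets.diagOne, ModularCosets.upperTri, Matrix.mul_apply, Fin.sum_univ_two] at h10
  rw [Gamma0_mem, ZMod.intCast_zmod_eq_zero_iff_dvd]
  exact ⟨(g : M2) 1 0, by rw [h10]; ring⟩

end FLTAgent.HeckeH
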