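/-
Exponential growth of functions at `i∞`, and behaviour under integral matrices of positive
determinant.
-/
import Fermat.Agent.Torsion.Defs
import Fermat.Agent.HeckeH.Periods
import Fermat.Agent.ModularCosets.CosetIndex

/-!
# Exponential growth at the cusps

`HasGrowth f κ`: `‖f z‖ · exp (2π κ Im z)` has a positive limit at `i∞`. The exponent is unique,
additive in products and behaves under affine substitutions. `GrowsAtCusps.comp_glM`: growth at
every cusp is stable under translation by integral matrices, by writing them as `SL(2, ℤ)` times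
upper triangular ones (`exists_decomp`).
-/

set_option autoImplicit false

open UpperHalfPlane CongruenceSubgroup Filter Topology AlgebraicCurve ModularCurve
open scoped MatrixGroups

noncomputable section

namespace FLTAgent.HeckeH

open FLTAgent.Modular

/-- `‖f z‖ · exp (2π κ Im z)` tends to a positive limit at `i∞`. -/
def HasGrowth (f : ℍ → ℂ) (κ : ℝ) : Prop :=
  ∃ L : ℝ, 0 < L ∧
    Tendsto (fun z : ℍ => ‖f z‖ * Real.exp (2 * Real.pi * κ * z.im)) atImInfty (𝓝 L)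

theorem tendsto_im_atImInfty : Tendsto UpperHalfPlane.im atImInfty atTop := tendsto_comap

theorem hasGrowth_of_qPow {f : ℍ → ℂ} {h : ℝ} {k : ℤ} {c : ℂ} (hc : c ≠ 0)
    (hf : Tendsto (fun z : ℍ => f z * qPow h (-k) z) atImInfty (𝓝 c)) :
    HasGrowth f (k / h) := by
  refine ⟨‖c‖, norm_pos_iff.mpr hc, (hf.norm).congr fun z => ?_⟩
  rw [norm_mul, norm_qPow, ← Real.rpow_intCast, ← Real.exp_mul]
  congr 2
  push_cast
  ring

theorem HasGrowth.congr {f g : ℍ → ℂ} {κ : ℝ} (hf : HasGrowth f κ)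
    (h : f =ᶠ[atImInfty] g) : HasGrowth g κ := by
  obtain ⟨L, hL, ht⟩ := hf
  exact ⟨L, hL, ht.congr' (h.mono fun z hz => by simp only [hz])⟩

theorem HasGrowth.one : HasGrowth (1 : ℍ → ℂ) 0 := ⟨1, one_pos, by simp⟩

theorem HasGrowth.mul {f g : ℍ → ℂ} {κ κ' : ℝ} (hf : HasGrowth f κ) (hg : HasGrowth g κ') :
    HasGrowth (f * g) (κ + κ') := by
  obtain ⟨L, hL, ht⟩ := hf
  obtain ⟨L', hL', ht'⟩ := hg
  refine ⟨L * L', mul_pos hL hL', (ht.mul ht').congr fun z => ?_⟩
  rw [Pi.mul_apply, norm_mul,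
    show 2 * Real.pi * (κ + κ') * z.im = 2 * Real.pi * κ * z.im + 2 * Real.pi * κ' * z.im by ring,
    Real.exp_add]
  ring

theorem HasGrowth.prod {ι : Type*} (s : Finset ι) {f : ι → ℍ → ℂ} {κ : ι → ℝ}
    (hf : ∀ i ∈ s, HasGrowth (f i) (κ i)) : HasGrowth (∏ i ∈ s, f i) (∑ i ∈ s, κ i) := by
  classical
  induction s using Finset.induction with
  | empty => simpa using HasGrowth.one
  | insert a s ha ih =>
    rw [Finset.prod_insert ha, Finset.sum_insert ha]
    exact (hf a (Finset.mem_insert_self a s)).mul (ih fun i hi => hf i (Finset.mem_insert_of_mem hi))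

theorem HasGrowth.pow {f : ℍ → ℂ} {κ : ℝ} (hf : HasGrowth f κ) (n : ℕ) :
    HasGrowth (f ^ n) (n * κ) := by
  induction n with
  | zero => simpa using HasGrowth.one
  | succ n ih =>
    rw [pow_succ, Nat.cast_succ, add_mul, one_mul]
    exact ih.mul hf

theorem HasGrowth.unique {f : ℍ → ℂ} {κ κ' : ℝ} (hf : HasGrowth f κ) (hg : HasGrowth f κ') :
    κ = κ' := by
  wlog hle : κ ≤ κ' generalizing κ κ'
  · exact (this hg hf (le_of_not_ge hle)).symm
  by_contra hne
  have hlt : 0 < 2 * Real.pi * (κ' - κ) :=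
    mul_pos (by positivity) (sub_pos.mpr (lt_of_le_of_ne hle hne))
  obtain ⟨L, hL, ht⟩ := hf
  obtain ⟨L', hL', ht'⟩ := hg
  have h1 : Tendsto (fun z : ℍ => Real.exp (2 * Real.pi * (κ' - κ) * z.im)) atImInfty atTop :=
    Real.tendsto_exp_atTop.comp ((tendsto_id.const_mul_atTop hlt).comp tendsto_im_atImInfty)
  have h2 : Tendsto (fun z : ℍ => ‖f z‖ * Real.exp (2 * Real.pi * κ' * z.im)) atImInfty atTop := by
    refine (ht.pos_mul_atTop hL h1).congr fun z => ?_
    rw [mul_assoc, ← Real.exp_add]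
    ring_nf
  have : (atImInfty : Filter ℍ).NeBot := by
    rw [atImInfty]
    refine comap_neBot fun t ht => ?_
    obtain ⟨A, hA⟩ := mem_atTop_sets.mp ht
    obtain ⟨z, hz⟩ := exists_im_gt A
    exact ⟨z, hA _ hz.le⟩
  exact not_tendsto_nhds_of_tendsto_atTop h2 L' ht'

theorem HasGrowth.comp_affine {f : ℍ → ℂ} {κ : ℝ} (hf : HasGrowth f κ) {φ : ℍ → ℍ} {a : ℝ}
    (ha : 0 < a) {b : ℝ} (hφ : ∀ z : ℍ, ((φ z : ℍ) : ℂ) = a * z + b) :
    HasGrowth (fun z => f (φ z)) (κ * a) := by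
  obtain ⟨L, hL, ht⟩ := hf
  refine ⟨L, hL, (ht.comp (tendsto_atImInfty_of_affine ha hφ)).congr fun z => ?_⟩
  have him : (φ z).im = a * z.im := by
    have := congrArg Complex.im (hφ z)
    simpa using this
  simp only [Function.comp_apply, him]
  ring_nf

theorem HasGrowth.exists_bounded {f : ℍ → ℂ} {κ : ℝ} (hf : HasGrowth f κ) {h : ℝ} (hh : 0 < h) :
    ∃ n : ℕ, IsBoundedAtImInfty fun z : ℍ => qPow h n z * f z := by
  obtain ⟨L, hL, ht⟩ := hf
  obtain ⟨n, hn⟩ := exists_nat_ge (-κ * h)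
  refine ⟨n, ?_⟩
  have hev := ht.eventually (gt_mem_nhds (show L < L + 1 by linarith))
  rw [isBoundedAtImInfty_iff]
  rw [Filter.Eventually, atImInfty_mem] at hev
  obtain ⟨A, hA⟩ := hev
  refine ⟨L + 1, max A 0, fun z hz => ?_⟩
  have h1 : ‖f z‖ * Real.exp (2 * Real.pi * κ * z.im) < L + 1 := hA z (le_of_max_le_left hz)
  refine le_trans ?_ h1.le
  rw [norm_mul, norm_qPow, ← Real.rpow_intCast, ← Real.exp_mul, mul_comm]
  refine mul_le_mul_of_nonneg_left (Real.exp_le_exp.mpr ?_) (norm_nonneg _)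
  have h2 : -κ ≤ n / h := by rw [le_div_iff₀ hh]; linarith
  have h3 : 0 ≤ 2 * Real.pi * z.im := by
    have := z.im_pos
    positivity
  push_cast
  calc -2 * Real.pi * z.im / h * n = -(2 * Real.pi * z.im) * (n / h) := by ring
    _ ≤ -(2 * Real.pi * z.im) * (-κ) := mul_le_mul_of_nonpos_left h2 (neg_nonpos.mpr h3)
    _ = _ := by ring

theorem det_glM_pos {M : M2} (h : M.det ≠ 0) (hM : 0 < M.det) :
    0 < (glM M h).val.det := by
  rw [val_glM, show M.map (Int.cast : ℤ → ℝ) = (Int.castRingHom ℝ).mapMatrix M from rfl,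
    ← RingHom.map_det]
  simpa using hM

theorem glM_mul_smul {A B C : M2} (hA : A.det ≠ 0) (hB : B.det ≠ 0) (hC : C.det ≠ 0)
    (h : C = A * B) (z : ℍ) : glM C hC • z = glM A hA • (glM B hB • z) := by
  rw [← mul_smul]
  congr 1
  refine Units.ext ?_
  rw [Units.val_mul, val_glM, val_glM, val_glM, h,
    show (A * B).map (Int.cast : ℤ → ℝ) = (Int.castRingHom ℝ).mapMatrix (A * B) from rfl, map_mul]
  rfl

theorem glM_SL (g : SL(2, ℤ)) (h : ((g : M2)).det ≠ 0) (z : ℍ) :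
    glM (g : M2) h • z = g • z := by
  show _ = (Matrix.SpecialLinearGroup.mapGL ℝ g) • z
  congr 1
  refine Units.ext ?_
  rw [val_glM, Matrix.SpecialLinearGroup.mapGL_coe_matrix]
  rfl

/-- `M γ = δ (a b; 0 D)`, as maps of `ℍ`. -/
theorem exists_decomp (M : M2) (hM : M.det ≠ 0) {n : ℕ} (hn : n ≠ 0) (hdet : M.det = n)
    (γ : SL(2, ℤ)) :
    ∃ (δ : SL(2, ℤ)) (φ : ℍ → ℍ) (a b D : ℕ), a * D = n ∧ b < D ∧
      (∀ z : ℍ, ((φ z : ℍ) : ℂ) = ((a : ℝ) / D : ℝ) * z + ((b : ℝ) / D : ℝ)) ∧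
      ∀ z : ℍ, glM M hM • (γ • z) = δ • φ z := by
  have hg : ((γ : M2)).det ≠ 0 := by rw [γ.2]; exact one_ne_zero
  obtain ⟨δ, a, b, D, haD, hbD, hMg⟩ := ModularCosets.exists_hnf (M * (γ : M2)) n hn
    (by rw [Matrix.det_mul, hdet, γ.2, mul_one])
  have hu : (ModularCosets.upperTri (a : ℤ) b D).det = n := by
    rw [ModularCosets.det_upperTri]; exact_mod_cast haD
  have hu0 : (ModularCosets.upperTri (a : ℤ) b D).det ≠ 0 := by
    rw [hu]; exact_mod_cast hn
  have hd0 : ((δ : M2)).det ≠ 0 := by rw [δ.2]; exact one_ne_zero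
  have hMg0 : (M * (γ : M2)).det ≠ 0 := by
    rw [Matrix.det_mul, γ.2, mul_one]; exact hM
  refine ⟨δ, fun z => glM _ hu0 • z, a, b, D, haD, hbD, fun z => ?_, fun z => ?_⟩
  · rw [coe_smul_of_det_pos]
    · simp [num, denom, val_glM, ModularCosets.upperTri]
      ring
    · rw [Matrix.GeneralLinearGroup.val_det_apply]
      exact det_glM_pos hu0 (by rw [hu]; exact_mod_cast Nat.pos_of_ne_zero hn)
  · rw [← glM_SL γ hg z, ← glM_mul_smul hM hg hMg0 rfl z, glM_mul_smul hd0 hu0 hMg0 hMg z,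
      glM_SL δ hd0]

/-- Growth of `f` at every cusp. -/
def GrowsAtCusps (f : ℍ → ℂ) : Prop :=
  ∀ γ : SL(2, ℤ), ∃ κ : ℝ, HasGrowth (fun z => f (γ • z)) κ

/-- Growth at every cusp passes to the translate by an integral matrix. -/
theorem GrowsAtCusps.comp_glM {f : ℍ → ℂ} (hf : GrowsAtCusps f) (M : M2) (hM : M.det ≠ 0)
    (hpos : 0 < M.det) : GrowsAtCusps fun z => f (glM M hM • z) := by
  intro γ
  obtain ⟨n, hn⟩ := Int.eq_ofNat_of_zero_le hpos.le
  have hn0 : n ≠ 0 := by omega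
  obtain ⟨δ, φ, a, b, D, haD, hbD, hφ, hMγ⟩ := exists_decomp M hM hn0 hn γ
  obtain ⟨κ, hκ⟩ := hf δ
  have ha : a ≠ 0 := fun h => hn0 (by rw [← haD, h, zero_mul])
  have hpos' : (0 : ℝ) < (a : ℝ) / D :=
    div_pos (by exact_mod_cast Nat.pos_of_ne_zero ha) (by exact_mod_cast (by omega : 0 < D))
  refine ⟨_, (hκ.comp_affine hpos' hφ).congr (Eventually.of_forall fun z => ?_)⟩
  simp only [hMγ]

/-- Two functions having the same growth exponents, after translation by an integral matrix. -/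
theorem hasGrowth_smul_of_pow {f g : ℍ → ℂ} {n : ℕ} (hf : GrowsAtCusps f)
    (hg : ∀ (γ : SL(2, ℤ)) (κ : ℝ), HasGrowth (fun z => f (γ • z)) κ →
      HasGrowth (fun z => g (γ • z)) (n * κ))
    (M : M2) (hM : M.det ≠ 0) (hpos : 0 < M.det) (γ : SL(2, ℤ)) {κ : ℝ}
    (h : HasGrowth (fun z => f (glM M hM • (γ • z))) κ) :
    HasGrowth (fun z => g (glM M hM • (γ • z))) (n * κ) := by
  obtain ⟨m, hm⟩ := Int.eq_ofNat_of_zero_le hpos.le
  have hm0 : m ≠ 0 := by omega
  obtain ⟨δ, φ, a, b, D, haD, hbD, hφ, hMγ⟩ := exists_decomp M hM hm0 hm γ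
  have ha : a ≠ 0 := fun h => hm0 (by rw [← haD, h, zero_mul])
  have hpos' : (0 : ℝ) < (a : ℝ) / D :=
    div_pos (by exact_mod_cast Nat.pos_of_ne_zero ha) (by exact_mod_cast (by omega : 0 < D))
  obtain ⟨κ', hκ'⟩ := hf δ
  have h1 := (hκ'.comp_affine hpos' hφ).congr (g := fun z => f (glM M hM • (γ • z)))
    (Eventually.of_forall fun z => by simp only [hMγ])
  have h2 := ((hg δ κ' hκ').comp_affine hpos' hφ).congr (g := fun z => g (glM M hM • (γ • z)))
    (Eventually.of_forall fun z => by simp only [hMγ])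
  rw [h.unique h1]
  convert h2 using 1
  ring

end FLTAgent.HeckeH
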