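/-
The norm along `α : X₀(Nℓ) → X₀(N)` of `y (ℓ z)` is the product of `y` over the representatives
of the double coset of `diag (ℓ, 1)`.
-/
import Fermat.Agent.HeckeH.CuspHom
import Fermat.Agent.HeckeH.Growth
import Fermat.Agent.ModularCosets.Embeddings
import Fermat.Prelude.Def_ModularCurve_HeckeOperator

/-!
# The norm along the degeneracy map

`ev_norm_beta`: the norm along `α : X₀(N ℓ) → X₀(N)` of `y (ℓ z)` is the product of the translates
of `y` by the representatives of the double coset of `diag (ℓ, 1)`. The representatives give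
pairwise distinct embeddings of the level `N ℓ` field over level `N` (`heckeSigma_injective`),
whose product computes the norm.
-/

set_option autoImplicit false

open UpperHalfPlane CongruenceSubgroup Filter Topology ModularCurve AlgebraicCurve
open scoped MatrixGroups

noncomputable section

namespace FLTAgent.HeckeH

open FLTAgent.Modular

local notation "Qb" => AlgebraicClosure ℚ

variable {N ℓ : ℕ} [NeZero N]

theorem det_heckeBetaT_pos (hℓ : ℓ.Prime) (i : heckeIdx N ℓ) : 0 < (heckeBetaT i).det := by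
  obtain ⟨_ | j, h⟩ := i
  · rw [heckeBetaT_none, Matrix.det_fin_two_of]
    simpa using hℓ.pos
  · rw [heckeBetaT_some, Matrix.det_fin_two_of]
    simpa using hℓ.pos

theorem heckeBetaT_det_ne (hℓ : ℓ.Prime) (i : heckeIdx N ℓ) : (heckeBetaT i).det ≠ 0 :=
  (det_heckeBetaT_pos hℓ i).ne'

/-- Each representative is `δ · diag (ℓ, 1) · g`. -/
theorem exists_diag_decomp (hℓ : ℓ.Prime) (i : heckeIdx N ℓ) :
    ∃ δ g : Gamma0 N, heckeBetaT i = matOf δ * ModularCosets.diagOne (ℓ : ℤ) * matOf g := by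
  obtain ⟨_ | j, h⟩ := i
  · obtain ⟨x, y, hxy⟩ : IsCoprime (ℓ : ℤ) (N : ℤ) :=
      Int.isCoprime_iff_gcd_eq_one.mpr (by
        simpa [Int.gcd] using (Nat.Prime.coprime_iff_not_dvd hℓ).mpr (h rfl))
    refine ⟨mkGamma0 1 y (-(N : ℤ)) ((ℓ : ℤ) * x) (by linear_combination hxy) (dvd_neg.mpr dvd_rfl),
      mkGamma0 x (-y) N ℓ (by linear_combination hxy) dvd_rfl, ?_⟩
    rw [heckeBetaT_none, matOf_mkGamma0, matOf_mkGamma0, ModularCosets.diagOne]
    ext a b
    fin_cases a <;> fin_cases b <;> simp [Matrix.mul_apply] <;>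
      first
        | linear_combination -hxy
        | linear_combination (-(ℓ : ℤ)) * hxy
        | ring
  · refine ⟨1, mkGamma0 1 0 (-((N : ℤ) * (j : ℕ))) 1 (by ring) (dvd_neg.mpr (dvd_mul_right _ _)), ?_⟩
    rw [heckeBetaT_some, matOf_one, Matrix.one_mul, matOf_mkGamma0, ModularCosets.diagOne]
    ext a b
    fin_cases a <;> fin_cases b <;> simp [Matrix.mul_apply]

/-- The left factor in `exists_diag_decomp`. -/
def decompL (hℓ : ℓ.Prime) (i : heckeIdx N ℓ) : Gamma0 N := (exists_diag_decomp hℓ i).choose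

/-- The right factor in `exists_diag_decomp`. -/
def decompR (hℓ : ℓ.Prime) (i : heckeIdx N ℓ) : Gamma0 N :=
  (exists_diag_decomp hℓ i).choose_spec.choose

theorem decomp_spec (hℓ : ℓ.Prime) (i : heckeIdx N ℓ) :
    heckeBetaT i = matOf (decompL hℓ i) * ModularCosets.diagOne (ℓ : ℤ) * matOf (decompR hℓ i) :=
  (exists_diag_decomp hℓ i).choose_spec.choose_spec

theorem glM_heckeBetaT_smul [NeZero ℓ] (hℓ : ℓ.Prime) (i : heckeIdx N ℓ) (z : ℍ) :
    glM (heckeBetaT i) (heckeBetaT_det_ne hℓ i) • z =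
      (decompL hℓ i : SL(2, ℤ)) •
        (ModularForm.heckeDiagMatrix ℓ • ((decompR hℓ i : SL(2, ℤ)) • z)) := by
  have hd : (ModularCosets.diagOne (ℓ : ℤ)).det ≠ 0 := by
    rw [ModularCosets.det_diagOne]; exact_mod_cast hℓ.ne_zero
  have hL : (matOf (decompL hℓ i)).det ≠ 0 := by rw [det_matOf]; exact one_ne_zero
  have hR : (matOf (decompR hℓ i)).det ≠ 0 := by rw [det_matOf]; exact one_ne_zero
  have hLd : (matOf (decompL hℓ i) * ModularCosets.diagOne (ℓ : ℤ)).det ≠ 0 := by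
    rw [Matrix.det_mul]; exact mul_ne_zero hL hd
  rw [glM_mul_smul hLd hR _ (decomp_spec hℓ i), glM_mul_smul hL hd hLd rfl, glM_diagOne_eq ℓ hd]
  show glM ((decompL hℓ i : SL(2, ℤ)) : M2) hL • (ModularForm.heckeDiagMatrix ℓ •
    (glM ((decompR hℓ i : SL(2, ℤ)) : M2) hR • z)) = _
  rw [glM_SL (decompL hℓ i : SL(2, ℤ)) hL, glM_SL (decompR hℓ i : SL(2, ℤ)) hR]

/-- The right factors lie in distinct cosets of `Γ₀(N ℓ)`. -/
theorem eq_of_mem_Gamma0 [NeZero ℓ] (hℓ : ℓ.Prime) {i k : heckeIdx N ℓ}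
    (h : (decompR hℓ i : SL(2, ℤ)) * (decompR hℓ k : SL(2, ℤ))⁻¹ ∈ Gamma0 (N * ℓ)) : i = k := by
  set s : Gamma0 N := decompR hℓ i * (decompR hℓ k)⁻¹ with hs
  have hs10 : ((N * ℓ : ℕ) : ℤ) ∣ matOf s 1 0 := by
    have := (ZMod.intCast_zmod_eq_zero_iff_dvd _ _).mp (Gamma0_mem.mp h)
    exact this
  obtain ⟨c, hc⟩ := hs10
  push_cast at hc
  let s' : Gamma0 N := mkGamma0 (matOf s 0 0) ((ℓ : ℤ) * matOf s 0 1) ((N : ℤ) * c) (matOf s 1 1)
    (by have := det_entries s; rw [hc] at this; linear_combination this) (dvd_mul_right _ _)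
  have hcomm : ModularCosets.diagOne (ℓ : ℤ) * matOf s = matOf s' * ModularCosets.diagOne (ℓ : ℤ) := by
    rw [matOf_mkGamma0, ModularCosets.diagOne]
    ext a b
    fin_cases a <;> fin_cases b <;> simp [Matrix.mul_apply, hc] <;> ring
  refine (heckeRepsT N hℓ).inj (decompL hℓ i * s' * (decompL hℓ k)⁻¹) i k ?_
  rw [heckeRepsT_β, heckeRepsT_β]
  have hR : matOf (decompR hℓ i) = matOf s * matOf (decompR hℓ k) := by
    rw [hs, ← matOf_mul, inv_mul_cancel_right]
  calc heckeBetaT i = matOf (decompL hℓ i) * (ModularCosets.diagOne (ℓ : ℤ) * matOf s) *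
        matOf (decompR hℓ k) := by
          rw [decomp_spec hℓ i, hR]; simp only [Matrix.mul_assoc]
    _ = matOf (decompL hℓ i * s') * (ModularCosets.diagOne (ℓ : ℤ) * matOf (decompR hℓ k)) := by
          rw [hcomm, matOf_mul]; simp only [Matrix.mul_assoc]
    _ = matOf (decompL hℓ i * s' * (decompL hℓ k)⁻¹) * heckeBetaT k := by
          rw [decomp_spec hℓ k]
          simp only [← Matrix.mul_assoc, ← matOf_mul, inv_mul_cancel_right]

variable [NeZero ℓ] (ι : Qb →+* ℂ)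

theorem embFC_qExpand (y : modularFunctionFieldBar N) :
    ((Torsion.embFC (N * ℓ) ι (heckeBetaBar Qb N ℓ y) : FC (N * ℓ)) : LaurentSeries ℂ) =
      qExpand ℂ ℓ ((Torsion.embFC N ι y : FC N) : LaurentSeries ℂ) := by
  rw [Torsion.coe_embFC, coe_heckeBetaBar, ModularCurve.coeffMap_qExpand, Torsion.coe_embFC]

theorem embFC_alpha (y : modularFunctionFieldBar N) :
    ((Torsion.embFC (N * ℓ) ι (heckeAlphaBar Qb N ℓ y) : FC (N * ℓ)) : LaurentSeries ℂ) =
      ((Torsion.embFC N ι y : FC N) : LaurentSeries ℂ) := by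
  rw [Torsion.coe_embFC, coe_heckeAlphaBar, Torsion.coe_embFC]

theorem ev_embFC_beta (y : modularFunctionFieldBar N) :
    ev ((Torsion.embFC (N * ℓ) ι (heckeBetaBar Qb N ℓ y) : FC (N * ℓ)) : LaurentSeries ℂ) =
      fun z => ev ((Torsion.embFC N ι y : FC N) : LaurentSeries ℂ)
        (ModularForm.heckeDiagMatrix ℓ • z) := by
  rw [embFC_qExpand]
  refine ev_eq_of_isMero ((isMero_ev _).comp_glSmul ?_) ((hasQExp_ev _).comp_mul ℓ
    fun z => ModularForm.coe_heckeDiagMatrix_smul (NeZero.ne ℓ) z)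
  exact (Matrix.GeneralLinearGroup.val_det_apply (ModularForm.heckeDiagMatrix ℓ)) ▸
    ModularForm.det_heckeDiagMatrix_pos ℓ

/-- The embedding attached to a representative. -/
def heckeSigma (hℓ : ℓ.Prime) (i : heckeIdx N ℓ) :
    modularFunctionFieldBar (N * ℓ) →+* LaurentSeries ℂ :=
  (cuspHom (M := N * ℓ) (decompR hℓ i : SL(2, ℤ))).toRingHom.comp (Torsion.embFC (N * ℓ) ι)

/-- The embedding of the base field. -/
def baseSigma (N ℓ : ℕ) [NeZero N] [NeZero ℓ] (ι : Qb →+* ℂ) :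
    modularFunctionFieldBar N →+* LaurentSeries ℂ :=
  (qExpand ℂ (N * ℓ)).comp ((FC N).toSubfield.subtype.comp (Torsion.embFC N ι))

theorem heckeSigma_alpha (hℓ : ℓ.Prime) (i : heckeIdx N ℓ) (y : modularFunctionFieldBar N) :
    heckeSigma ι hℓ i (heckeAlphaBar Qb N ℓ y) = baseSigma N ℓ ι y := by
  refine cuspSer_eq ?_
  rw [embFC_alpha]
  have h := (hasQExp_ev (Torsion.embFC N ι y)).qExpand (N * ℓ)
  have h2 : (fun z => ev ((Torsion.embFC N ι y : FC N) : LaurentSeries ℂ)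
      ((decompR hℓ i : SL(2, ℤ)) • z)) = ev ((Torsion.embFC N ι y : FC N) : LaurentSeries ℂ) :=
    funext fun z => (isModFun_ev _).smul (decompR hℓ i) z
  rw [h2]
  show HasQExp _ _ (qExpand ℂ (N * ℓ) ((Torsion.embFC N ι y : FC N) : LaurentSeries ℂ))
  simpa using h

theorem heckeSigma_injective (hℓ : ℓ.Prime) : Function.Injective (heckeSigma (N := N) ι hℓ) := by
  intro i k hik
  refine eq_of_mem_Gamma0 hℓ (mem_Gamma0_of_jMulFun_smul _ fun z => ?_)
  let jM : modularFunctionFieldBar (N * ℓ) :=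
    ⟨coeffEmb Qb (qExpand ℚ (N * ℓ) jq),
      coeffEmb_mem_laurentBaseChange Qb (jqd_mem_full (N * ℓ) dvd_rfl)⟩
  have he : ((Torsion.embFC (N * ℓ) ι jM : FC (N * ℓ)) : LaurentSeries ℂ) =
      coeffEmb ℂ (qExpand ℚ (N * ℓ) jq) := by
    rw [Torsion.coe_embFC]
    show coeffMap ι (coeffEmb Qb (qExpand ℚ (N * ℓ) jq)) = _
    rw [coeffEmb, coeffMap_coeffMap,
      coeffMap_congr (Subsingleton.elim (ι.comp (algebraMap ℚ Qb)) (algebraMap ℚ ℂ))]
    rfl
  have h1 := congrFun (comp_eq_of_cuspHom_eq (M := N * ℓ) (y := Torsion.embFC (N * ℓ) ι jM)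
    (RingHom.congr_fun hik jM)) ((decompR hℓ k : SL(2, ℤ))⁻¹ • z)
  simp only [he, ev_jq_qExpand] at h1
  rw [smul_inv_smul, ← mul_smul] at h1
  exact h1

theorem baseSigma_apply (y : modularFunctionFieldBar N) :
    baseSigma N ℓ ι y = qExpand ℂ (N * ℓ) ((Torsion.embFC N ι y : FC N) : LaurentSeries ℂ) := rfl

omit [NeZero ℓ] in
theorem isMeroRaw_prod_translates (hℓ : ℓ.Prime) {f : ℍ → ℂ} (hf : IsMero f) :
    IsMeroRaw (∏ i : heckeIdx N ℓ, fun z => f (glM (heckeBetaT i) (heckeBetaT_det_ne hℓ i) • z)) :=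
  IsMeroRaw.finprod _ fun i _ =>
    hf.raw.comp_glSmul (det_glM_pos _ (det_heckeBetaT_pos hℓ i))

/-- The norm along `α` of `y (ℓ z)` is the product of the translates of `y`. -/
theorem ev_norm_beta (hℓ : ℓ.Prime) (hfin : FiniteAlong Qb (heckeAlphaBar Qb N ℓ))
    (hdeg : finrankAlong Qb (heckeAlphaBar Qb N ℓ) = Fintype.card (heckeIdx N ℓ))
    (y : modularFunctionFieldBar N) :
    ev ((Torsion.embFC N ι (letI := algebraAlong (heckeAlphaBar Qb N ℓ);
        Algebra.norm (modularFunctionFieldBar N) (heckeBetaBar Qb N ℓ y)) : FC N) :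
          LaurentSeries ℂ) =
      nfH (∏ i : heckeIdx N ℓ, fun z => ev ((Torsion.embFC N ι y : FC N) : LaurentSeries ℂ)
        (glM (heckeBetaT i) (heckeBetaT_det_ne hℓ i) • z)) := by
  let := algebraAlong (heckeAlphaBar Qb N ℓ)
  have : Module.Finite (modularFunctionFieldBar N) (modularFunctionFieldBar (N * ℓ)) := hfin
  have hnorm : baseSigma N ℓ ι (Algebra.norm (modularFunctionFieldBar N) (heckeBetaBar Qb N ℓ y)) =
      ∏ i, heckeSigma ι hℓ i (heckeBetaBar Qb N ℓ y) :=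
    ModularCosets.norm_eq_prod_sigma (baseSigma N ℓ ι) (heckeSigma ι hℓ)
      (fun i x => heckeSigma_alpha ι hℓ i x) (heckeSigma_injective ι hℓ) hdeg.symm _
  rw [baseSigma_apply] at hnorm
  set y' : FC N := Torsion.embFC N ι
    (Algebra.norm (modularFunctionFieldBar N) (heckeBetaBar Qb N ℓ y)) with hy'
  have hfac : ∀ i : heckeIdx N ℓ, HasQExp ((N * ℓ : ℕ) : ℝ)
      (fun z => ev ((Torsion.embFC N ι y : FC N) : LaurentSeries ℂ)
        (glM (heckeBetaT i) (heckeBetaT_det_ne hℓ i) • z))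
      (heckeSigma ι hℓ i (heckeBetaBar Qb N ℓ y)) := fun i => by
    have h := hasQExp_cuspHom (M := N * ℓ) (decompR hℓ i : SL(2, ℤ))
      (Torsion.embFC (N * ℓ) ι (heckeBetaBar Qb N ℓ y))
    rw [ev_embFC_beta] at h
    refine h.congr (Eventually.of_forall fun z => ?_)
    show _ = ev _ _
    rw [glM_heckeBetaT_smul hℓ i z, (isModFun_ev _).smul (decompL hℓ i)]
  have h1 : HasQExp ((N * ℓ : ℕ) : ℝ) (ev ((y' : FC N) : LaurentSeries ℂ))
      (qExpand ℂ (N * ℓ) ((y' : FC N) : LaurentSeries ℂ)) := by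
    simpa using (hasQExp_ev y').qExpand (N * ℓ)
  rw [hnorm] at h1
  have h2 := (HasQExp.finprod Finset.univ fun i _ => hfac i).nfH (natCast_pos_real (N * ℓ))
  exact (isMero_ev y').eq_of_hasQExp (natCast_pos_real (N * ℓ))
    (isMero_nfH (isMeroRaw_prod_translates hℓ (isMero_ev _))) h1 h2

end FLTAgent.HeckeH
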