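/-
`heckeOperatorBar` on the torsion of `J₀(N)` is the transfer operator `heckeHT` on characters.
-/
import Fermat.Agent.HeckeH.NormTransfer
import Fermat.Agent.HeckeH.Action
import Fermat.Agent.Torsion.API
import Fermat.Agent.ModularPlaces.Orders
import Fermat.Prelude.Def_ModularCurve_HeckeModule

/-!
# Hecke operators on torsion of `J₀(N)`

`jTorsionEquiv_heckeOperatorBar_of_inputs`: under the identification of `n`-torsion with
characters, `heckeOperatorBar` is the transfer `heckeHT`. If `n D` is the divisor of `y`, then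
`n` times the image of `D` is the divisor of the norm, whose multiplier function is the product of
the translates of that of `D` (`multTransfer`, `isMult_multTransfer`).
-/

set_option autoImplicit false

open UpperHalfPlane CongruenceSubgroup Filter Topology ModularCurve AlgebraicCurve
open scoped MatrixGroups

noncomputable section

namespace FLTAgent.HeckeH

open FLTAgent.Modular

local notation "Qb" => AlgebraicClosure ℚ

variable {N ℓ : ℕ} [NeZero N]

theorem cuspWidth_pos (γ : SL(2, ℤ)) : 0 < cuspWidth N γ :=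
  (Nat.sInf_mem (s := {w : ℕ | 0 < w ∧ (γ * ModularGroup.T ^ (w : ℤ) * γ⁻¹) ∈ Gamma0 N})
    ⟨N, Nat.pos_of_ne_zero (NeZero.ne N), T_pow_conj_mem_Gamma0 N γ⟩).1

theorem hasGrowth_of_hasDivisor {f : ℍ → ℂ} {D : Divisor ℂ (FC N)}
    (hf : Torsion.HasDivisor N f D) (γ : SL(2, ℤ)) :
    HasGrowth (fun z => f (γ • z)) ((D (cuspPlace γ) : ℝ) / cuspWidth N γ) := by
  obtain ⟨c, hc, ht⟩ := hf.cusp γ
  exact hasGrowth_of_qPow hc ht

theorem growsAtCusps_of_hasDivisor {f : ℍ → ℂ} {D : Divisor ℂ (FC N)}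
    (hf : Torsion.HasDivisor N f D) : GrowsAtCusps f :=
  fun γ => ⟨_, hasGrowth_of_hasDivisor hf γ⟩

theorem eventually_analyticAt_of_growth {f : ℍ → ℂ} (hf : IsMero f) {κ : ℝ}
    (h : HasGrowth f κ) : ∀ᶠ z : ℍ in atImInfty, AnalyticAt ℂ (f ∘ ofComplex) (z : ℂ) := by
  obtain ⟨n, hn⟩ := h.exists_bounded (h := 1) one_pos
  exact hf.eventually_analyticAt_of_bounded hn

/-- Normalisation does not change the growth. -/
theorem HasGrowth.nfH_prod {ι : Type*} [Fintype ι] {f : ι → ℍ → ℂ} {κ : ι → ℝ}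
    (hm : ∀ i, IsMero (f i)) (hf : ∀ i, HasGrowth (f i) (κ i)) :
    HasGrowth (nfH (∏ i, f i)) (∑ i, κ i) := by
  refine (HasGrowth.prod Finset.univ fun i _ => hf i).congr ?_
  have hev : ∀ᶠ z : ℍ in atImInfty, ∀ i, AnalyticAt ℂ (f i ∘ ofComplex) (z : ℂ) :=
    eventually_all.mpr fun i => eventually_analyticAt_of_growth (hm i) (hf i)
  filter_upwards [hev] with z hz
  refine (nfH_apply_of_analyticAt ?_).symm
  have h := Finset.analyticAt_fun_prod (Finset.univ : Finset ι) (fun i _ => hz i)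
  have e : (∏ i, f i) ∘ ofComplex = fun w => ∏ i, (f i ∘ ofComplex) w := by
    funext w
    simp [Finset.prod_apply]
  rw [e]
  exact h

theorem nfH_const_mul {f : ℍ → ℂ} (hf : IsMeroRaw f) (c : ℂ) (hc : c ≠ 0) :
    nfH (fun z => c * f z) = fun z => c * nfH f z := by
  have hm : IsMero fun z => c * nfH f z := fun z => by
    have := ((isMero_nfH hf) z).smul_analytic (g := fun _ => c) analyticAt_const hc
    exact this
  rw [← nfH_eq_self hm]
  refine nfH_congr fun z => ?_
  filter_upwards [nfH_eventuallyEq hf z] with w hw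
  simp only [Function.comp_apply] at hw ⊢
  rw [hw]

theorem divExt_apply_eq_ord (ι : Qb →+* ℂ) {y : modularFunctionFieldBar N}
    {E : Divisor Qb (modularFunctionFieldBar N)} (hE : ∀ v, E v = v.ord y) (w : Place ℂ (FC N)) :
    Torsion.divExt ι E w = w.ord (Torsion.embFC N ι y) := by
  by_cases hw : ∃ v, w = Torsion.placeExt ι v
  · obtain ⟨v, rfl⟩ := hw
    rw [Torsion.ord_placeExt, ← hE]
    exact Finsupp.mapDomain_apply (Torsion.placeExt_injective ι) E v
  · rw [show Torsion.divExt ι E w = 0 from Finsupp.mapDomain_of_notMem_range _ _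
      (fun ⟨v, hv⟩ => hw ⟨v, hv.symm⟩)]
    by_contra hne
    exact hw (Torsion.eq_placeExt_of_ord_ne_zero ι (Ne.symm hne))

/-- The product of the translates of a multiplier function. -/
def multTransfer (hℓ : ℓ.Prime) (f : ℍ → ℂ) : ℍ → ℂ :=
  nfH (∏ i : heckeIdx N ℓ, fun z => f (glM (heckeBetaT i) (heckeBetaT_det_ne hℓ i) • z))

theorem hasGrowth_multTransfer (hℓ : ℓ.Prime) {f : ℍ → ℂ} (hf : IsMero f) (γ : SL(2, ℤ))
    {κ : heckeIdx N ℓ → ℝ}
    (hκ : ∀ i, HasGrowth (fun z => f (glM (heckeBetaT i) (heckeBetaT_det_ne hℓ i) • (γ • z))) (κ i)) :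
    HasGrowth (fun z => multTransfer (N := N) hℓ f (γ • z)) (∑ i, κ i) := by
  have e : (fun z => multTransfer (N := N) hℓ f (γ • z)) = nfH (∏ i : heckeIdx N ℓ,
      fun z => f (glM (heckeBetaT i) (heckeBetaT_det_ne hℓ i) • (γ • z))) := by
    rw [multTransfer]
    refine (nfH_comp_glSmul (isMeroRaw_prod_translates hℓ hf) (det_pos_SL γ)).symm.trans ?_
    congr 1
    funext z
    simp only [Finset.prod_apply]
    rfl
  rw [e]
  exact HasGrowth.nfH_prod (fun i => ((hf.comp_glSmul (det_glM_pos _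
    (det_heckeBetaT_pos hℓ i))).comp_sl γ)) hκ

theorem order_multTransfer (hℓ : ℓ.Prime) {f : ℍ → ℂ} (hf : IsMero f) (z : ℍ) :
    meromorphicOrderAt (multTransfer (N := N) hℓ f ∘ ofComplex) (z : ℂ) =
      ∑ i : heckeIdx N ℓ, meromorphicOrderAt (f ∘ ofComplex)
        ((glM (heckeBetaT i) (heckeBetaT_det_ne hℓ i) • z : ℍ) : ℂ) := by
  rw [multTransfer, meromorphicOrderAt_nfH (isMeroRaw_prod_translates hℓ hf)]
  have e : (∏ i : heckeIdx N ℓ, fun z => f (glM (heckeBetaT i) (heckeBetaT_det_ne hℓ i) • z)) ∘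
      ofComplex = fun w => ∏ i : heckeIdx N ℓ,
        ((fun z => f (glM (heckeBetaT i) (heckeBetaT_det_ne hℓ i) • z)) ∘ ofComplex) w := by
    funext w
    simp [Finset.prod_apply]
  rw [e, meromorphicOrderAt_fun_prod (fun i _ => (hf.comp_glSmul (det_glM_pos _
    (det_heckeBetaT_pos hℓ i))).meromorphicAt z)]
  exact Finset.sum_congr rfl fun i _ =>
    meromorphicOrderAt_comp_glSmul f (det_glM_pos _ (det_heckeBetaT_pos hℓ i)) z

theorem isMult_multTransfer (hℓ : ℓ.Prime) {n : ℕ} [NeZero n]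
    {φ : Additive (Gamma0 N) →+ ZMod n} {f : ℍ → ℂ} (hf : IsMult N f (Torsion.expChar φ))
    {D : Divisor ℂ (FC N)} (hD : Torsion.HasDivisor N f D) :
    IsMult N (multTransfer (N := N) hℓ f)
      (Torsion.expChar ((heckeRepsT N hℓ).transfer (ZMod n) φ)) where
  mero := isMero_nfH (isMeroRaw_prod_translates hℓ hf.mero)
  meroCusp γ := by
    choose κ hκ using fun i : heckeIdx N ℓ =>
      (growsAtCusps_of_hasDivisor hD).comp_glM (heckeBetaT i) (heckeBetaT_det_ne hℓ i)
        (det_heckeBetaT_pos hℓ i) γ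
    exact (hasGrowth_multTransfer hℓ hf.mero γ hκ).exists_bounded
      (by exact_mod_cast Nat.pos_of_ne_zero (NeZero.ne N))
  nonzero := by
    refine ⟨UpperHalfPlane.I, ?_⟩
    rw [order_multTransfer hℓ hf.mero]
    simp only [hD.order]
    rw [← WithTop.coe_sum]
    exact WithTop.coe_ne_top
  smul γ z := by
    set G : heckeIdx N ℓ → ℍ → ℂ :=
      fun i z => f (glM (heckeBetaT i) (heckeBetaT_det_ne hℓ i) • z) with hG
    set c : ℂ := (Torsion.expChar ((heckeRepsT N hℓ).transfer (ZMod n) φ) γ : ℂ) with hc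
    have hinv : (fun z => (∏ i, G i) ((γ : SL(2, ℤ)) • z)) = fun z => c * (∏ i, G i) z := by
      funext z
      simp only [Finset.prod_apply]
      have hstep : ∀ i, G i ((γ : SL(2, ℤ)) • z) =
          (Torsion.expChar φ ((heckeRepsT N hℓ).coc γ i) : ℂ) *
            G ((heckeRepsT N hℓ).perm γ i) z := by
        intro i
        simp only [hG]
        rw [glM_smul_comm (heckeBetaT_det_ne hℓ i)
          (heckeBetaT_det_ne hℓ ((heckeRepsT N hℓ).perm γ i)) ((heckeRepsT N hℓ).spec γ i) z,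
          hf.smul]
      rw [Finset.prod_congr rfl fun i _ => hstep i, Finset.prod_mul_distrib]
      congr 1
      · rw [hc, Torsion.coe_expChar, Reps.transfer_apply]
        simp only [Torsion.coe_expChar]
        classical
        induction (Finset.univ : Finset (heckeIdx N ℓ)) using Finset.induction with
        | empty => simp
        | insert a s ha ih =>
          rw [Finset.prod_insert ha, Finset.sum_insert ha, AddChar.map_add_eq_mul, ih]
      · exact Equiv.prod_comp ((heckeRepsT N hℓ).permEquiv γ) fun i => G i z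
    have hraw := isMeroRaw_prod_translates (N := N) hℓ hf.mero
    show nfH (∏ i, G i) ((γ : SL(2, ℤ)) • z) = c * nfH (∏ i, G i) z
    rw [show nfH (∏ i, G i) ((γ : SL(2, ℤ)) • z) =
      nfH (fun w => (∏ i, G i) ((γ : SL(2, ℤ)) • w)) z from
        (congrFun (nfH_comp_glSmul hraw (det_pos_SL (γ : SL(2, ℤ)))) z).symm]
    rw [hinv, nfH_const_mul hraw c (Units.ne_zero _)]

section Torsion

variable (ι : Qb →+* ℂ) [NeZero ℓ]

set_option maxHeartbeats 1000000 in
set_option synthInstance.maxHeartbeats 200000 in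
/-- `heckeOperatorBar` on `n`-torsion is `heckeHT` on characters, given the inputs. -/
theorem jTorsionEquiv_heckeOperatorBar_of_inputs (hℓ : ℓ.Prime)
    (hin : HeckeInputsAlong Qb N ℓ)
    (hdeg : finrankAlong Qb (heckeAlphaBar Qb N ℓ) = Fintype.card (heckeIdx N ℓ))
    {n : ℕ} [NeZero n] (x : Pic0.torsion Qb (modularFunctionFieldBar N) n)
    (hx : heckeOperatorBar N ⟨ℓ, hℓ⟩ (x : JZero N) ∈ Pic0.torsion Qb (modularFunctionFieldBar N) n) :
    Torsion.jTorsionEquiv N ι n ⟨heckeOperatorBar N ⟨ℓ, hℓ⟩ (x : JZero N), hx⟩ =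
      heckeHT N hℓ (ZMod n) (ZMod n) (Torsion.jTorsionEquiv N ι n x) := by
  obtain ⟨hα, hβ, hP, hfin, hFI, hN⟩ := id hin
  obtain ⟨x, hxn⟩ := x
  obtain ⟨D, rfl⟩ := Pic0.mk_surjective x
  set E : Divisor.degZero (K := Qb) (F := modularFunctionFieldBar N) :=
    Pic0.degZeroCorrespondence (heckeBetaBar Qb N ℓ) (heckeAlphaBar Qb N ℓ) hβ hα hFI D with hE
  have hTx : heckeOperatorBar N ⟨ℓ, hℓ⟩ (Pic0.mk D) = Pic0.mk E := by
    show heckeOperatorAlong Qb N ℓ (Pic0.mk D) = _
    rw [heckeOperatorAlong_eq hα hβ hFI hfin hN]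
    rfl
  -- `n • D` is principal
  have hnD : n • (D : Divisor Qb (modularFunctionFieldBar N)) ∈
      Divisor.principal (K := Qb) (F := modularFunctionFieldBar N) := by
    have h0 : Pic0.mk (n • D) = 0 := by
      have := Pic0.mem_torsion.mp hxn
      rw [natCast_zsmul] at this
      exact this
    have := (QuotientAddGroup.eq_zero_iff _).mp h0
    simpa [AddSubgroup.mem_addSubgroupOf] using this
  obtain ⟨y, hy0, hy⟩ := hnD
  -- `n • E` is the divisor of the norm
  let := algebraAlong (heckeAlphaBar Qb N ℓ)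
  have : Module.Finite (modularFunctionFieldBar N) (modularFunctionFieldBar (N * ℓ)) := hfin
  set y' : modularFunctionFieldBar N :=
    Algebra.norm (modularFunctionFieldBar N) (heckeBetaBar Qb N ℓ y) with hy'
  have hβy : heckeBetaBar Qb N ℓ y ≠ 0 :=
    (map_ne_zero_iff _ (heckeBetaBar Qb N ℓ).toRingHom.injective).mpr hy0
  have hy'0 : y' ≠ 0 := Algebra.norm_ne_zero_iff.mpr hβy
  have hpull : ∀ w, Divisor.pullbackAlong (heckeBetaBar Qb N ℓ) hβ
      (n • (D : Divisor Qb (modularFunctionFieldBar N))) w = w.ord (heckeBetaBar Qb N ℓ y) := by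
    intro w
    refine (Divisor.pullbackAlong_apply (heckeBetaBar Qb N ℓ) hβ _ w).trans ?_
    rw [hy]
    exact (Place.ord_restrictAlong (heckeBetaBar Qb N ℓ) hβ w y).symm
  have hnE : ∀ v, (n • (E : Divisor Qb (modularFunctionFieldBar N))) v = v.ord y' := by
    intro v
    have h1 : n • (E : Divisor Qb (modularFunctionFieldBar N)) =
        Divisor.pushforwardAlong (heckeAlphaBar Qb N ℓ) hα
          (Divisor.pullbackAlong (heckeBetaBar Qb N ℓ) hβ
            (n • (D : Divisor Qb (modularFunctionFieldBar N)))) := by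
      show n • Divisor.pushforwardAlong (heckeAlphaBar Qb N ℓ) hα
        (Divisor.pullbackAlong (heckeBetaBar Qb N ℓ) hβ (D : Divisor Qb (modularFunctionFieldBar N))) = _
      rw [map_nsmul, map_nsmul]
    rw [h1]
    exact hN _ hβy _ hpull v
  -- the multiplier function of `D`
  have hDC : n • Torsion.divExt ι (D : Divisor Qb (modularFunctionFieldBar N)) ∈
      Divisor.principal (K := ℂ) (F := FC N) := by
    rw [← map_nsmul, Torsion.divExt_mem_principal_iff]
    exact ⟨y, hy0, hy⟩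
  obtain ⟨φ, hφ, f, hfm, hfD⟩ := Torsion.exists_mult_of_nsmul_principal hDC
  have hx1 : Pic0.mk (Torsion.degZeroExt ι D) ∈ Pic0.torsion ℂ (FC N) n :=
    (Torsion.picExtTorsion ι n ⟨Pic0.mk D, hxn⟩).2
  have hex : (Torsion.jTorsionEquiv N ι n ⟨Pic0.mk D, hxn⟩ : Additive (Gamma0 N) →+ ZMod n) = φ :=
    Torsion.torsionEquiv_eq (D := Torsion.degZeroExt ι D) hx1 hfm hfD
  -- its transfer
  have hTφ := (heckeRepsT N hℓ).transfer_mem_H (ZMod n) hφ
  have hfT := isMult_multTransfer hℓ hfm hfD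
  obtain ⟨D₀, hD₀, -⟩ := Torsion.exists_divisor_of_mult hTφ hfT
  -- the divisors of `y` and of `y'` over `ℂ`
  have hY : Torsion.HasDivisor N (ev ((Torsion.embFC N ι y : FC N) : LaurentSeries ℂ))
      (n • Torsion.divExt ι (D : Divisor Qb (modularFunctionFieldBar N))) := by
    refine Torsion.hasDivisor_ev ((map_ne_zero_iff _ (Torsion.embFC N ι).injective).mpr hy0)
      fun w => ?_
    rw [← map_nsmul]
    exact divExt_apply_eq_ord ι hy w
  have hY' : Torsion.HasDivisor N (ev ((Torsion.embFC N ι y' : FC N) : LaurentSeries ℂ))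
      (n • Torsion.divExt ι (E : Divisor Qb (modularFunctionFieldBar N))) := by
    refine Torsion.hasDivisor_ev ((map_ne_zero_iff _ (Torsion.embFC N ι).injective).mpr hy'0)
      fun w => ?_
    rw [← map_nsmul]
    exact divExt_apply_eq_ord ι hnE w
  have hnorm : ev ((Torsion.embFC N ι y' : FC N) : LaurentSeries ℂ) =
      multTransfer (N := N) hℓ (ev ((Torsion.embFC N ι y : FC N) : LaurentSeries ℂ)) :=
    ev_norm_beta ι hℓ hfin hdeg y
  have hkey : D₀ = Torsion.degZeroExt ι E := by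
    refine Subtype.ext (Finsupp.ext fun v => ?_)
    show (D₀ : Divisor ℂ (FC N)) v = Torsion.divExt ι (E : Divisor Qb (modularFunctionFieldBar N)) v
    have hn : (n : ℤ) ≠ 0 := by exact_mod_cast NeZero.ne n
    rcases place_exhaustive v with ⟨z, rfl⟩ | ⟨γ, rfl⟩
    · have he : (ellOrder N z : ℤ) ≠ 0 := by
        exact_mod_cast (ModularPlaces.ellOrder_pos (N := N) z).ne'
      have h1 := hD₀.order z
      rw [order_multTransfer hℓ hfm.mero] at h1
      simp only [hfD.order] at h1
      rw [← WithTop.coe_sum, WithTop.coe_eq_coe] at h1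
      have h2 := hY'.order z
      rw [hnorm, order_multTransfer hℓ (isMero_ev _)] at h2
      simp only [hY.order] at h2
      rw [← WithTop.coe_sum, WithTop.coe_eq_coe] at h2
      simp only [Finsupp.smul_apply, nsmul_eq_mul] at h2
      refine mul_left_cancel₀ hn (mul_left_cancel₀ he ?_)
      rw [← h2, mul_left_comm, ← h1, Finset.mul_sum]
      exact Finset.sum_congr rfl fun i _ => by ring
    · choose κ hκ using fun i : heckeIdx N ℓ =>
        (growsAtCusps_of_hasDivisor hfD).comp_glM (heckeBetaT i) (heckeBetaT_det_ne hℓ i)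
          (det_heckeBetaT_pos hℓ i) γ
      have h1 := (hasGrowth_multTransfer hℓ hfm.mero γ hκ).unique (hasGrowth_of_hasDivisor hD₀ γ)
      have hpow : ∀ (δ : SL(2, ℤ)) (a : ℝ), HasGrowth (fun z => f (δ • z)) a →
          HasGrowth (fun z => ev ((Torsion.embFC N ι y : FC N) : LaurentSeries ℂ) (δ • z))
            (n * a) := by
        intro δ a ha
        rw [ha.unique (hasGrowth_of_hasDivisor hfD δ)]
        have := hasGrowth_of_hasDivisor hY δ
        simpa [Finsupp.smul_apply, mul_div_assoc] using this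
      have h2 := (hasGrowth_multTransfer hℓ (isMero_ev (Torsion.embFC N ι y)) γ fun i =>
        hasGrowth_smul_of_pow (growsAtCusps_of_hasDivisor hfD) hpow (heckeBetaT i)
          (heckeBetaT_det_ne hℓ i) (det_heckeBetaT_pos hℓ i) γ (hκ i))
      rw [← hnorm] at h2
      have h3 := h2.unique (hasGrowth_of_hasDivisor hY' γ)
      rw [← Finset.mul_sum, h1] at h3
      simp only [Finsupp.smul_apply, nsmul_eq_mul, Int.cast_mul, Int.cast_natCast] at h3
      have hw : (cuspWidth N γ : ℝ) ≠ 0 := by exact_mod_cast (cuspWidth_pos (N := N) γ).ne'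
      have hn' : (n : ℝ) ≠ 0 := by exact_mod_cast NeZero.ne n
      field_simp at h3
      exact_mod_cast h3
  refine Subtype.ext ?_
  rw [coe_heckeHT, hex, Torsion.jTorsionEquiv_apply]
  have hx2 : Pic0.mk D₀ ∈ Pic0.torsion ℂ (FC N) n := (Torsion.mk_mem_torsion_of_mult hfT hD₀).1
  have he : Torsion.picExtTorsion ι n ⟨heckeOperatorBar N ⟨ℓ, hℓ⟩ (Pic0.mk D), hx⟩ =
      ⟨Pic0.mk D₀, hx2⟩ := by
    refine Subtype.ext ?_
    show Torsion.picExt N ι (heckeOperatorBar N ⟨ℓ, hℓ⟩ (Pic0.mk D)) = _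
    rw [hTx, Torsion.picExt_mk, ← hkey]
  rw [he]
  exact Torsion.torsionEquiv_eq hx2 hfT hD₀

end Torsion

end FLTAgent.HeckeH
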