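/-
The Hecke-equivariant identification of the torsion of `J₀(N)` with characters.
-/
import Fermat.Agent.HeckeH.TorsionHecke
import Fermat.Agent.ModularCosets.Corollaries
import Fermat.Agent.FF.PlacesModular

/-!
# Hecke-equivariant description of the torsion of `J₀(N)`

`heckeInputs` discharges the hypotheses of `heckeOperatorBar` and `heckeTorsionEquiv` is the
isomorphism of `J₀(N)[n]` with `Period.H N (ℤ/n)`, twisted by the Fricke involution so that
`T_ℓ` and `U_ℓ` match the action of the Hecke algebra (`heckeTorsionEquiv_T`,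
`heckeTorsionEquiv_U`). `heckeTorsionEquiv_conj`: complex conjugation is `-jH`;
`heckeTorsionEquiv_nsmul`: compatibility in `n`.
-/

set_option autoImplicit false
set_option linter.style.haveILetI false

open CongruenceSubgroup ModularCurve AlgebraicCurve
open scoped MatrixGroups

noncomputable section

namespace FLTAgent.HeckeH

local notation "Qb" => AlgebraicClosure ℚ

variable (N : ℕ) [NeZero N]

theorem card_heckeIdx (ℓ : ℕ) :
    Fintype.card (heckeIdx N ℓ) = if ℓ ∣ N then ℓ else ℓ + 1 := by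
  split_ifs with h
  · rw [← Fintype.card_congr (idxEquivU h), Fintype.card_fin]
  · rw [Fintype.card_congr (idxEquivT h), Fintype.card_option, Fintype.card_fin]

/-- The degree of `α` over `ℚ̄`. -/
theorem finrankAlong_alphaBar {ℓ : ℕ} [NeZero ℓ] (hℓ : ℓ.Prime) :
    finrankAlong Qb (heckeAlphaBar Qb N ℓ) = Fintype.card (heckeIdx N ℓ) := by
  rw [card_heckeIdx]
  exact ModularCosets.finrankAlong_alphaBar hℓ

/-- The inputs of `heckeOperatorBar` hold. -/
theorem heckeInputs (ℓ : ℕ) [NeZero ℓ] : HeckeInputsAlong Qb N ℓ :=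
  haveI := FF.isFF_laurentBaseChange_full Qb N fun _ _ h => ModularCosets.isAlgebraic_rat_jq _ h
  haveI := FF.isFF_laurentBaseChange_full Qb (N * ℓ)
    fun _ _ h => ModularCosets.isAlgebraic_rat_jq _ h
  FF.heckeInputsAlong Qb N ℓ

/-- `heckeOperatorBar` preserves the torsion. -/
theorem heckeOperatorBar_mem_torsion (ℓ : Nat.Primes) {n : ℕ} {x : JZero N}
    (hx : x ∈ Pic0.torsion Qb (modularFunctionFieldBar N) n) :
    heckeOperatorBar N ℓ x ∈ Pic0.torsion Qb (modularFunctionFieldBar N) n := by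
  rw [Pic0.mem_torsion] at hx ⊢
  rw [← map_zsmul, hx, map_zero]

variable (ι : Qb →+* ℂ)

/-- `heckeOperatorBar` on torsion is the transfer of the double coset of `diag (ℓ, 1)`. -/
theorem jTorsionEquiv_heckeOperatorBar {ℓ : ℕ} (hℓ : ℓ.Prime) {n : ℕ} [NeZero n]
    (x : Pic0.torsion Qb (modularFunctionFieldBar N) n) :
    Torsion.jTorsionEquiv N ι n ⟨heckeOperatorBar N ⟨ℓ, hℓ⟩ (x : JZero N),
        heckeOperatorBar_mem_torsion N ⟨ℓ, hℓ⟩ x.2⟩ =
      heckeHT N hℓ (ZMod n) (ZMod n) (Torsion.jTorsionEquiv N ι n x) :=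
  haveI : NeZero ℓ := ⟨hℓ.ne_zero⟩
  jTorsionEquiv_heckeOperatorBar_of_inputs ι hℓ (heckeInputs N ℓ) (finrankAlong_alphaBar N hℓ) x _

/-- `J₀(N)[n] ≃ H N (ℤ/n)`, twisted by the Fricke matrix. -/
def heckeTorsionEquiv (n : ℕ) [NeZero n] :
    Pic0.torsion Qb (modularFunctionFieldBar N) n ≃+ Period.H N (ZMod n) (ZMod n) where
  toFun x := wH N (ZMod n) (ZMod n) (Torsion.jTorsionEquiv N ι n x)
  invFun φ := (Torsion.jTorsionEquiv N ι n).symm (wH N (ZMod n) (ZMod n) φ)
  left_inv x := by simp only [wH_wH, AddEquiv.symm_apply_apply]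
  right_inv φ := by simp only [AddEquiv.apply_symm_apply, wH_wH]
  map_add' x y := by simp only [map_add]

theorem heckeTorsionEquiv_apply {n : ℕ} [NeZero n]
    (x : Pic0.torsion Qb (modularFunctionFieldBar N) n) :
    heckeTorsionEquiv N ι n x = wH N (ZMod n) (ZMod n) (Torsion.jTorsionEquiv N ι n x) := rfl

/-- `heckeTorsionEquiv` turns `heckeOperatorBar` into `heckeH`. -/
theorem heckeTorsionEquiv_hecke {ℓ : ℕ} (hℓ : ℓ.Prime) {n : ℕ} [NeZero n]
    (x : Pic0.torsion Qb (modularFunctionFieldBar N) n) :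
    heckeTorsionEquiv N ι n ⟨heckeOperatorBar N ⟨ℓ, hℓ⟩ (x : JZero N),
        heckeOperatorBar_mem_torsion N ⟨ℓ, hℓ⟩ x.2⟩ =
      heckeH N hℓ (ZMod n) (ZMod n) (heckeTorsionEquiv N ι n x) := by
  rw [heckeTorsionEquiv_apply, heckeTorsionEquiv_apply, jTorsionEquiv_heckeOperatorBar N ι hℓ,
    wH_heckeHT]

/-- Compatibility with `T_ℓ` in the Hecke algebra. -/
theorem heckeTorsionEquiv_T {ℓ : ℕ} (hℓ : ℓ.Prime) (hℓN : ¬ ℓ ∣ N) (hℓS : ℓ ∉ (∅ : Set ℕ))
    {n : ℕ} [NeZero n] (x : Pic0.torsion Qb (modularFunctionFieldBar N) n) :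
    heckeTorsionEquiv N ι n ⟨heckeOperatorBar N ⟨ℓ, hℓ⟩ (x : JZero N),
        heckeOperatorBar_mem_torsion N ⟨ℓ, hℓ⟩ x.2⟩ =
      heckeEnd N (ZMod n) (ZMod n) (CuspForm.heckeAlgebra.T hℓ hℓN hℓS)
        (heckeTorsionEquiv N ι n x) := by
  rw [heckeTorsionEquiv_hecke, heckeEnd_T]

/-- Compatibility with `U_ℓ` in the Hecke algebra. -/
theorem heckeTorsionEquiv_U {ℓ : ℕ} (hℓ : ℓ.Prime) (hℓN : ℓ ∣ N) (hℓS : ℓ ∉ (∅ : Set ℕ))
    {n : ℕ} [NeZero n] (x : Pic0.torsion Qb (modularFunctionFieldBar N) n) :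
    heckeTorsionEquiv N ι n ⟨heckeOperatorBar N ⟨ℓ, hℓ⟩ (x : JZero N),
        heckeOperatorBar_mem_torsion N ⟨ℓ, hℓ⟩ x.2⟩ =
      heckeEnd N (ZMod n) (ZMod n) (CuspForm.heckeAlgebra.U hℓ hℓN hℓS)
        (heckeTorsionEquiv N ι n x) := by
  rw [heckeTorsionEquiv_hecke, heckeEnd_U]

theorem wH_jH (R A : Type*) [Semiring R] [AddCommGroup A] [Module R A] (φ : Period.H N R A) :
    wH N R A (jH N R A φ) = jH N R A (wH N R A φ) := by
  refine Subtype.ext (AddMonoidHom.ext fun γ => ?_)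
  show (φ : Additive (Gamma0 N) →+ A)
      (Additive.ofMul (ModularCurve.Period.jConjGamma0 N (wGamma0 N (Additive.toMul γ)))) =
    (φ : Additive (Gamma0 N) →+ A)
      (Additive.ofMul (wGamma0 N (ModularCurve.Period.jConjGamma0 N (Additive.toMul γ))))
  congr 2
  apply matOf_injective
  show ModularCurve.Period.jConjMat (wMat N (matOf (Additive.toMul γ))) =
    wMat N (ModularCurve.Period.jConjMat (matOf (Additive.toMul γ)))
  ext i j
  fin_cases i <;> fin_cases j <;>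
    simp [wMat, ModularCurve.Period.jConjMat, Int.neg_ediv_of_dvd (matOf_dvd (Additive.toMul γ))]

/-- Complex conjugation is minus the involution `jH`. -/
theorem heckeTorsionEquiv_conj {n : ℕ} [NeZero n] (σ : Qb ≃ₐ[ℚ] Qb)
    (hσ : ∀ a, ι (σ a) = starRingEnd ℂ (ι a))
    (x : Pic0.torsion Qb (modularFunctionFieldBar N) n) :
    heckeTorsionEquiv N ι n (JZero.torsionGaloisRep N n σ x) =
      - jH N (ZMod n) (ZMod n) (heckeTorsionEquiv N ι n x) := by
  have h : Torsion.jTorsionEquiv N ι n (JZero.torsionGaloisRep N n σ x) =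
      - jH N (ZMod n) (ZMod n) (Torsion.jTorsionEquiv N ι n x) :=
    Subtype.ext (Torsion.jTorsionEquiv_conj ι σ hσ x)
  rw [heckeTorsionEquiv_apply, heckeTorsionEquiv_apply, h, map_neg, wH_jH]

/-- Compatibility in `n`: multiplication by `m` is reduction of characters. -/
theorem heckeTorsionEquiv_nsmul {m n : ℕ} [NeZero m] [NeZero n]
    (x : Pic0.torsion Qb (modularFunctionFieldBar N) (m * n))
    (hx : m • (x : JZero N) ∈ Pic0.torsion Qb (modularFunctionFieldBar N) n) :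
    (heckeTorsionEquiv N ι n ⟨m • (x : JZero N), hx⟩ : Additive (Gamma0 N) →+ ZMod n) =
      ((ZMod.castHom (dvd_mul_left n m) (ZMod n)).toAddMonoidHom).comp
        (heckeTorsionEquiv N ι (m * n) x : Additive (Gamma0 N) →+ ZMod (m * n)) := by
  refine AddMonoidHom.ext fun γ => ?_
  have h := DFunLike.congr_fun (Torsion.jTorsionEquiv_nsmul ι x hx)
    (Additive.ofMul (wGamma0 N (Additive.toMul γ)))
  exact h

end FLTAgent.HeckeH
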