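/-
Eigenspaces of the Hecke algebra on `H N K K` for fields `K` of characteristic zero: they are
two-dimensional, with both eigenvalues of the involution.
-/
import Fermat.Agent.HeckeH.Action
import Fermat.Agent.IntStr.Main

/-!
# Eigenspaces of the Hecke algebra on periods

For a character of the weight two Hecke algebra into a field of characteristic zero the
simultaneous eigenspace on periods has dimension two (`finrank_famEigen`), one for each sign of
the involution (`finrank_famEigen_sign`, `exists_eigen_sign`). Over `ℂ` this follows from the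
period isomorphism and multiplicity one via the Hecke pairing; the general case descends to a
number field (`exists_descent`), as the algebra is finite over `ℤ` (`moduleFinite_heckeAlgebra`).
-/

set_option autoImplicit false
set_option linter.unusedSectionVars false

open CongruenceSubgroup ModularCurve ModularCurve.Period Matrix
open scoped MatrixGroups

noncomputable section

namespace FLTAgent.HeckeH

section Family

variable {r : ℕ} {ι : Type*} (M : ι → Matrix (Fin r) (Fin r) ℤ)

/-- The simultaneous eigenspace of a family of integer matrices. -/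
def famEigen {K : Type*} [Field K] (c : ι → K) : Submodule K (Fin r → K) where
  carrier := {v | ∀ t, (M t).map (Int.cast : ℤ → K) *ᵥ v = c t • v}
  zero_mem' := fun t => by simp
  add_mem' := fun {v w} hv hw t => by rw [mulVec_add, hv t, hw t, smul_add]
  smul_mem' := fun a v hv t => by rw [mulVec_smul, hv t, smul_comm]

theorem mem_famEigen {K : Type*} [Field K] {c : ι → K} {v : Fin r → K} :
    v ∈ famEigen M c ↔ ∀ t, (M t).map (Int.cast : ℤ → K) *ᵥ v = c t • v := Iff.rfl

/-- The dimension of a simultaneous eigenspace does not change under extension of the field. -/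
theorem finrank_famEigen_map {E F : Type*} [Field E] [Field F] (f : E →+* F) (c : ι → E) :
    Module.finrank F (famEigen M (f ∘ c)) = Module.finrank E (famEigen M c) := by
  classical
  algebraize [f]
  let β := Module.Basis.ofVectorSpace E F
  let b := Module.finBasis E (famEigen M c)
  have hmul : ∀ (N : Matrix (Fin r) (Fin r) ℤ) (w : Fin r → E),
      N.map (Int.cast : ℤ → F) *ᵥ (f ∘ w) = f ∘ (N.map (Int.cast : ℤ → E) *ᵥ w) := by
    intro N w
    funext i
    simp [mulVec, dotProduct, map_sum]
  let img : Fin (Module.finrank E (famEigen M c)) → famEigen M (f ∘ c) := fun k =>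
    ⟨f ∘ (b k : Fin r → E), fun t => by
      rw [hmul, (b k).2 t]
      funext i
      simp⟩
  have hli : LinearIndependent F img := by
    rw [Fintype.linearIndependent_iff]
    intro g hg k
    refine β.ext_elem fun l => ?_
    have key : ∑ j, (β.repr (g j) l) • b j = 0 := by
      refine Subtype.ext (funext fun i => ?_)
      have h1 := congrArg (fun x : famEigen M (f ∘ c) => (x : Fin r → F) i) hg
      simp only [Submodule.coe_sum, Finset.sum_apply, SetLike.val_smul, Pi.smul_apply,
        smul_eq_mul, img, Function.comp_apply, ZeroMemClass.coe_zero, Pi.zero_apply] at h1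
      have h2 := congrArg (fun x => β.repr x l) h1
      simp only [map_sum, map_zero, Finsupp.coe_finsetSum, Finset.sum_apply,
        Finsupp.coe_zero, Pi.zero_apply] at h2
      simp only [Submodule.coe_sum, Finset.sum_apply, SetLike.val_smul, Pi.smul_apply,
        smul_eq_mul, ZeroMemClass.coe_zero, Pi.zero_apply]
      refine Eq.trans (Finset.sum_congr rfl fun j _ => ?_) h2
      rw [show g j * f ((b j : Fin r → E) i) = (b j : Fin r → E) i • g j from by
        rw [Algebra.smul_def, mul_comm]; rfl]
      rw [map_smul, Finsupp.smul_apply, smul_eq_mul, mul_comm]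
    have h4 := Fintype.linearIndependent_iff.mp b.linearIndependent _ key k
    simpa using h4
  have hspan : ⊤ ≤ Submodule.span F (Set.range img) := by
    rintro ⟨v, hv⟩ -
    set supp : Finset _ := Finset.univ.biUnion fun i => (β.repr (v i)).support with hsupp
    set w : Module.Basis.ofVectorSpaceIndex E F → Fin r → E :=
      fun l i => β.repr (v i) l with hw
    have hwmem : ∀ l, w l ∈ famEigen M c := by
      intro l t
      funext i
      have h1 := congrArg (fun x => β.repr x l) (congrFun (hv t) i)
      simp only [mulVec, dotProduct, map_apply, Pi.smul_apply, smul_eq_mul, Function.comp_apply,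
        map_sum, Finsupp.coe_finsetSum, Finset.sum_apply] at h1 ⊢
      rw [show f (c t) * v i = c t • v i from (Algebra.smul_def _ _).symm, map_smul,
        Finsupp.smul_apply, smul_eq_mul] at h1
      rw [← h1]
      refine Finset.sum_congr rfl fun j _ => ?_
      rw [show ((M t i j : ℤ) : F) * v j = ((M t i j : ℤ) : E) • v j from by
        rw [Algebra.smul_def, map_intCast], map_smul, Finsupp.smul_apply, smul_eq_mul]
    have hv' : v = ∑ l ∈ supp, β l • (f ∘ w l) := by
      funext i
      simp only [Finset.sum_apply, Pi.smul_apply, smul_eq_mul, Function.comp_apply, hw]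
      have h := β.linearCombination_repr (v i)
      rw [Finsupp.linearCombination_apply, Finsupp.sum,
        Finset.sum_subset (s₂ := supp)
          (fun l hl => by rw [hsupp, Finset.mem_biUnion]; exact ⟨i, Finset.mem_univ _, hl⟩)
          (fun l _ hl => by rw [Finsupp.notMem_support_iff.mp hl, zero_smul])] at h
      refine h.symm.trans (Finset.sum_congr rfl fun l _ => ?_)
      rw [Algebra.smul_def, mul_comm]
      rfl
    have hcomb : ∀ l, (⟨f ∘ w l, fun t => by
        rw [hmul, hwmem l t]; funext i; simp⟩ : famEigen M (f ∘ c)) ∈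
          Submodule.span F (Set.range img) := by
      intro l
      have h := b.sum_repr ⟨w l, hwmem l⟩
      have : (⟨f ∘ w l, fun t => by
          rw [hmul, hwmem l t]; funext i; simp⟩ : famEigen M (f ∘ c)) =
          ∑ k, f (b.repr ⟨w l, hwmem l⟩ k) • img k := by
        refine Subtype.ext (funext fun i => ?_)
        have h2 := congrArg (fun x : famEigen M c => (x : Fin r → E) i) h
        simp only [Submodule.coe_sum, Finset.sum_apply, SetLike.val_smul, Pi.smul_apply,
          smul_eq_mul] at h2 ⊢
        show f (w l i) = _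
        rw [← h2, map_sum]
        exact Finset.sum_congr rfl fun k _ => map_mul f _ _
      rw [this]
      exact Submodule.sum_mem _ fun k _ =>
        Submodule.smul_mem _ _ (Submodule.subset_span (Set.mem_range_self k))
    have e : (⟨v, hv⟩ : famEigen M (f ∘ c)) = ∑ l ∈ supp, β l • ⟨f ∘ w l, fun t => by
        rw [hmul, hwmem l t]; funext i; simp⟩ := by
      refine Subtype.ext ?_
      simp only [Submodule.coe_sum, SetLike.val_smul]
      exact hv'
    rw [e]
    exact Submodule.sum_mem _ fun l _ => Submodule.smul_mem _ _ (hcomb l)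
  rw [Module.finrank_eq_card_basis (Module.Basis.mk hli hspan), Fintype.card_fin]

end Family

variable (N : ℕ) [NeZero N]

/-- The eigen-forms with a given system of eigenvalues. -/
def eigenForms (χ : CuspForm.heckeAlgebra N 2 ∅ → ℂ) :
    Submodule ℂ (CuspForm (Gamma0 N) 2) :=
  ⨅ t : CuspForm.heckeAlgebra N 2 ∅,
    LinearMap.ker ((t : Module.End ℂ (CuspForm (Gamma0 N) 2)) - χ t • LinearMap.id)

theorem mem_eigenForms {χ : CuspForm.heckeAlgebra N 2 ∅ → ℂ} {f : CuspForm (Gamma0 N) 2} :
    f ∈ eigenForms N χ ↔ ∀ t : CuspForm.heckeAlgebra N 2 ∅,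
      (t : Module.End ℂ (CuspForm (Gamma0 N) 2)) f = χ t • f := by
  simp [eigenForms, sub_eq_zero]

/-- Multiplicity one, from the perfect Hecke pairing. -/
theorem finrank_eigenForms (χ : CuspForm.heckeAlgebra N 2 ∅ →+* ℂ) :
    Module.finrank ℂ (eigenForms N χ) = 1 := by
  have hb := IntStr.heckePairing_two_bijective N
  obtain ⟨f, hf⟩ := hb.2 χ.toAddMonoidHom.toIntLinearMap
  have hpair : ∀ (g : CuspForm (Gamma0 N) 2) (s t : CuspForm.heckeAlgebra N 2 ∅),
      IntStr.heckePairing N 2 ((t : Module.End ℂ (CuspForm (Gamma0 N) 2)) g) s =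
        IntStr.heckePairing N 2 g (s * t) := by
    intro g s t
    rw [IntStr.heckePairing_apply, IntStr.heckePairing_apply]
    rfl
  have hfmem : f ∈ eigenForms N χ := by
    rw [mem_eigenForms]
    intro t
    refine hb.1 (LinearMap.ext fun s => ?_)
    rw [hpair, hf, map_smul, LinearMap.smul_apply, hf, smul_eq_mul]
    show χ (s * t) = χ t * χ s
    rw [map_mul, mul_comm]
  have hf0 : f ≠ 0 := by
    intro h
    have h1 := LinearMap.congr_fun hf (1 : CuspForm.heckeAlgebra N 2 ∅)
    rw [h, map_zero, LinearMap.zero_apply] at h1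
    exact zero_ne_one (h1.trans (map_one χ))
  refine finrank_eq_one ⟨f, hfmem⟩ (fun h => hf0 (congrArg Subtype.val h)) ?_
  rintro ⟨g, hg⟩
  refine ⟨IntStr.heckePairing N 2 g 1, Subtype.ext (hb.1 (LinearMap.ext fun t => ?_))⟩
  have h := hpair g 1 t
  rw [(mem_eigenForms N).mp hg t, one_mul, map_smul, LinearMap.smul_apply] at h
  simp only [SetLike.val_smul, map_smul, LinearMap.smul_apply, hf, smul_eq_mul]
  rw [← h, smul_eq_mul]
  exact mul_comm _ _

/-- The period isomorphism in coordinates. -/
def periodCoord : (CuspForm (Gamma0 N) 2 × CuspForm (Gamma0 N) 2) ≃ₗ[ℂ]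
    (Fin (Period.rankH N) → ℂ) :=
  (LinearEquiv.ofBijective (ppH N) ⟨ppH_injective N, ppH_surjective N⟩).trans
    (Period.evalEquiv N ℂ ℂ)

theorem mulVec_periodCoord {M : HMat N} {q : CuspForm (Gamma0 N) 2 × CuspForm (Gamma0 N) 2}
    {p : CuspForm (Gamma0 N) 2 × CuspForm (Gamma0 N) 2}
    (h : matAct N ℂ ℂ M (ppH N p) = ppH N q) :
    M.map (Int.cast : ℤ → ℂ) *ᵥ periodCoord N p = periodCoord N q := by
  funext i
  have h1 := evalEquiv_matAct N ℂ ℂ M (ppH N p) i
  rw [h] at h1
  show _ = Period.evalEquiv N ℂ ℂ (ppH N q) i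
  rw [h1]
  simp only [mulVec, dotProduct, map_apply, zsmul_eq_mul]
  rfl

/-- The dimension of a product of subspaces of cusp forms. -/
theorem finrank_prod_sub (P Q : Submodule ℂ (CuspForm (Gamma0 N) 2)) :
    Module.finrank ℂ (P.prod Q) = Module.finrank ℂ P + Module.finrank ℂ Q := by
  have := Period.finiteDimensional_cuspForm_two (N := N)
  let e : (P.prod Q) ≃ₗ[ℂ] P × Q :=
    { toFun := fun x => (⟨x.1.1, x.2.1⟩, ⟨x.1.2, x.2.2⟩)
      invFun := fun x => ⟨(x.1.1, x.2.1), x.1.2, x.2.2⟩
      map_add' := fun _ _ => rfl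
      map_smul' := fun _ _ => rfl }
  rw [e.finrank_eq, Module.finrank_prod]

/-- The family whose eigenspaces are cut out: the Hecke matrices. -/
def heckeFam : CuspForm.heckeAlgebra N 2 ∅ → HMat N := fun t => heckeMat N t

/-- The Hecke matrices together with the involution. -/
def heckeJFam : Option (CuspForm.heckeAlgebra N 2 ∅) → HMat N := fun o => o.elim (jMat N) (heckeMat N)

theorem finrank_famEigen_complex (χ : CuspForm.heckeAlgebra N 2 ∅ →+* ℂ) :
    Module.finrank ℂ (famEigen (heckeFam N) χ) = 2 := by
  have h : famEigen (heckeFam N) χ =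
      ((eigenForms N χ).prod (eigenForms N χ)).map (periodCoord N).toLinearMap := by
    ext v
    rw [Submodule.mem_map_equiv, Submodule.mem_prod, mem_famEigen, mem_eigenForms, mem_eigenForms]
    obtain ⟨p, rfl⟩ := (periodCoord N).surjective v
    rw [LinearEquiv.symm_apply_apply]
    have e : ∀ t, (heckeFam N t).map (Int.cast : ℤ → ℂ) *ᵥ periodCoord N p = χ t • periodCoord N p ↔
        ((t : Module.End ℂ (CuspForm (Gamma0 N) 2)) p.1 = χ t • p.1 ∧
          (t : Module.End ℂ (CuspForm (Gamma0 N) 2)) p.2 = χ t • p.2) := by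
      intro t
      rw [heckeFam, mulVec_periodCoord N (heckeMat_spec N t p), ← map_smul,
        (periodCoord N).injective.eq_iff, Prod.ext_iff]
      rfl
    simp only [e, forall_and]
  rw [h, LinearEquiv.finrank_map_eq, finrank_prod_sub, finrank_eigenForms]

theorem finrank_famEigen_sign_complex (χ : CuspForm.heckeAlgebra N 2 ∅ →+* ℂ) {e : ℤ}
    (he : e = 1 ∨ e = -1) :
    Module.finrank ℂ (famEigen (heckeJFam N) (fun o => o.elim (e : ℂ) χ)) = 1 := by
  have h : famEigen (heckeJFam N) (fun o => o.elim (e : ℂ) χ) =
      (if e = 1 then (eigenForms N χ).prod ⊥ else Submodule.prod ⊥ (eigenForms N χ)).map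
        (periodCoord N).toLinearMap := by
    ext v
    rw [Submodule.mem_map_equiv, mem_famEigen]
    obtain ⟨p, rfl⟩ := (periodCoord N).surjective v
    rw [LinearEquiv.symm_apply_apply, Option.forall]
    have eT : ∀ t, (heckeMat N t).map (Int.cast : ℤ → ℂ) *ᵥ periodCoord N p = χ t • periodCoord N p ↔
        ((t : Module.End ℂ (CuspForm (Gamma0 N) 2)) p.1 = χ t • p.1 ∧
          (t : Module.End ℂ (CuspForm (Gamma0 N) 2)) p.2 = χ t • p.2) := by
      intro t
      rw [mulVec_periodCoord N (heckeMat_spec N t p), ← map_smul,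
        (periodCoord N).injective.eq_iff, Prod.ext_iff]
      rfl
    have eJ : (jMat N).map (Int.cast : ℤ → ℂ) *ᵥ periodCoord N p = (e : ℂ) • periodCoord N p ↔
        (p.1 = (e : ℂ) • p.1 ∧ -p.2 = (e : ℂ) • p.2) := by
      rw [mulVec_periodCoord N (q := (p.1, -p.2)) (by rw [matAct_jMat, jH_ppH]), ← map_smul,
        (periodCoord N).injective.eq_iff, Prod.ext_iff]
      rfl
    simp only [heckeJFam, Option.elim, eT, eJ, forall_and]
    rcases he with rfl | rfl
    · simp only [Int.cast_one, one_smul, neg_eq_iff_add_eq_zero, true_and, if_true,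
        Submodule.mem_prod, Submodule.mem_bot, mem_eigenForms]
      constructor
      · rintro ⟨h2, h1, -⟩
        exact ⟨h1, by simpa [← two_smul ℂ] using h2⟩
      · rintro ⟨h1, h2⟩
        exact ⟨by simp [h2], h1, by simp [h2]⟩
    · simp only [Int.cast_neg, Int.cast_one, neg_smul, one_smul, and_true, Submodule.mem_prod,
        Submodule.mem_bot, mem_eigenForms, show (-1 : ℤ) ≠ 1 by decide, if_false,
        eq_neg_iff_add_eq_zero]
      constructor
      · rintro ⟨h1, -, h2⟩
        exact ⟨by simpa [← two_smul ℂ] using h1, fun t => by simpa [eq_neg_iff_add_eq_zero] using h2 t⟩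
      · rintro ⟨h1, h2⟩
        exact ⟨by simp [h1], by simp [h1], h2⟩
  rw [h, LinearEquiv.finrank_map_eq]
  by_cases he1 : e = 1
  · rw [if_pos he1, finrank_prod_sub, finrank_eigenForms, finrank_bot]
  · rw [if_neg he1, finrank_prod_sub, finrank_eigenForms, finrank_bot]

/-- The full Hecke algebra of weight two is finite over `ℤ`. -/
theorem moduleFinite_heckeAlgebra : Module.Finite ℤ (CuspForm.heckeAlgebra N 2 ∅) :=
  Module.Finite.of_injective (heckeMatHom N).toAddMonoidHom.toIntLinearMap (heckeMatHom_injective N)

/-- A character of the Hecke algebra into a field of characteristic zero is defined over a number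
field, hence comes from one into `ℂ`. -/
theorem exists_descent {K : Type*} [Field K] [CharZero K]
    (χ : CuspForm.heckeAlgebra N 2 ∅ →+* K) :
    ∃ (E : IntermediateField ℚ K) (χE : CuspForm.heckeAlgebra N 2 ∅ →+* E) (_ : E →+* ℂ),
      ∀ t, (χE t : K) = χ t := by
  have := moduleFinite_heckeAlgebra N
  set E : IntermediateField ℚ K := IntermediateField.adjoin ℚ (Set.range χ) with hE
  have : Algebra.IsAlgebraic ℚ E := by
    refine IntermediateField.isAlgebraic_adjoin ?_
    rintro _ ⟨t, rfl⟩
    have h1 : IsIntegral ℤ t := Algebra.IsIntegral.isIntegral t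
    have h2 : IsIntegral ℤ (χ t) := h1.map χ.toIntAlgHom
    exact h2.tower_top
  refine ⟨E, χ.codRestrict E.toSubfield fun t =>
    IntermediateField.subset_adjoin ℚ _ (Set.mem_range_self t),
    (IsAlgClosed.lift : E →ₐ[ℚ] ℂ).toRingHom, fun t => rfl⟩

/-- The eigenspace of every character is two-dimensional. -/
theorem finrank_famEigen {K : Type*} [Field K] [CharZero K]
    (χ : CuspForm.heckeAlgebra N 2 ∅ →+* K) :
    Module.finrank K (famEigen (heckeFam N) χ) = 2 := by
  obtain ⟨E, χE, j, hχ⟩ := exists_descent N χ
  rw [show (χ : CuspForm.heckeAlgebra N 2 ∅ → K) = algebraMap E K ∘ χE from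
    funext fun t => (hχ t).symm, finrank_famEigen_map, ← finrank_famEigen_map _ j χE]
  exact finrank_famEigen_complex N (j.comp χE)

/-- Each sign of the involution occurs once. -/
theorem finrank_famEigen_sign {K : Type*} [Field K] [CharZero K]
    (χ : CuspForm.heckeAlgebra N 2 ∅ →+* K) {e : ℤ} (he : e = 1 ∨ e = -1) :
    Module.finrank K (famEigen (heckeJFam N) (fun o => o.elim (e : K) χ)) = 1 := by
  obtain ⟨E, χE, j, hχ⟩ := exists_descent N χ
  have h1 : (fun o : Option (CuspForm.heckeAlgebra N 2 ∅) => o.elim (e : K) χ) =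
      algebraMap E K ∘ fun o => o.elim (e : E) χE := by
    funext o
    cases o with
    | none => simp
    | some t => exact (hχ t).symm
  rw [h1, finrank_famEigen_map, ← finrank_famEigen_map _ j]
  have h2 : (j ∘ fun o : Option (CuspForm.heckeAlgebra N 2 ∅) => o.elim (e : E) χE) =
      fun o => o.elim (e : ℂ) (j.comp χE) := by
    funext o
    cases o <;> simp
  rw [h2]
  exact finrank_famEigen_sign_complex N (j.comp χE) he

/-- There are eigenvectors fixed, resp. negated, by the involution. -/
theorem exists_eigen_sign {K : Type*} [Field K] [CharZero K]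
    (χ : CuspForm.heckeAlgebra N 2 ∅ →+* K) {e : ℤ} (he : e = 1 ∨ e = -1) :
    ∃ v : Fin (Period.rankH N) → K, v ≠ 0 ∧
      (∀ t, (heckeMatHom N t).map (Int.cast : ℤ → K) *ᵥ v = χ t • v) ∧
      (jMat N).map (Int.cast : ℤ → K) *ᵥ v = (e : K) • v := by
  have h := finrank_famEigen_sign N χ he
  have : Nontrivial (famEigen (heckeJFam N) fun o => o.elim (e : K) χ) :=
    Module.nontrivial_of_finrank_eq_succ h
  obtain ⟨⟨v, hv⟩, hne⟩ := exists_ne (0 : famEigen (heckeJFam N) fun o => o.elim (e : K) χ)
  exact ⟨v, fun h0 => hne (Subtype.ext h0), fun t => hv (some t), hv none⟩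

end FLTAgent.HeckeH
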